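import Mathlib.FieldTheory.IsAlgClosed.Basic
import Mathlib.RingTheory.Jacobson.Ring
import Mathlib.RingTheory.FiniteType
import Mathlib.RingTheory.TensorProduct.Maps
import Mathlib.LinearAlgebra.TensorProduct.Basis
import Mathlib.LinearAlgebra.Basis.VectorSpace
import Mathlib.RingTheory.Adjoin.FG

/-!
# Over an algebraically closed field a domain stays a domain after base change to any field

If `z * w = 0` in `K ⊗ A`, evaluate the coordinates at the `k`-points of the finitely generated
subalgebra containing them.
-/

set_option autoImplicit false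

universe u

noncomputable section

open scoped TensorProduct

namespace Fermat.Agent.Jacobian

variable {k : Type u} [Field k] [IsAlgClosed k] {A : Type u} [CommRing A] [IsDomain A]
  [Algebra k A]

/-- A nonzero element of a finitely generated domain is nonzero at some `k`-point. -/
theorem exists_point_apply_ne_zero [Algebra.FiniteType k A] {f : A} (hf : f ≠ 0) :
    ∃ ρ : A →ₐ[k] k, ρ f ≠ 0 := by
  have : IsJacobsonRing A := isJacobsonRing_of_finiteType (A := k) (B := A)
  obtain ⟨m, hm, hfm⟩ : ∃ m : Ideal A, m.IsMaximal ∧ f ∉ m := by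
    by_contra h
    have hmem : f ∈ (⊥ : Ideal A).jacobson :=
      Ideal.mem_sInf.mpr fun m hm => by_contra fun hfm => h ⟨m, hm.2, hfm⟩
    have hrad : (⊥ : Ideal A).jacobson = ⊥ :=
      IsJacobsonRing.out inferInstance
        (Ideal.isPrime_bot (α := A)).isRadical
    rw [hrad, Ideal.mem_bot] at hmem
    exact hf hmem
  let _ : Field (A ⧸ m) := Ideal.Quotient.field m
  have : Module.Finite k (A ⧸ m) := finite_of_finite_type_of_isJacobsonRing k (A ⧸ m)
  let e := AlgEquiv.ofBijective (Algebra.ofId k (A ⧸ m))
    IsAlgClosed.algebraMap_bijective_of_isIntegral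
  refine ⟨e.symm.toAlgHom.comp (Ideal.Quotient.mkₐ k m), fun h => hfm ?_⟩
  rw [← Ideal.Quotient.eq_zero_iff_mem]
  exact e.symm.injective (h.trans (map_zero _).symm)

theorem isDomain_fieldTensor (K : Type u) [Field K] [Algebra k K] : IsDomain (K ⊗[k] A) := by
  classical
  let b := Module.Basis.ofVectorSpace k K
  let co := fun (B : Type u) [CommRing B] [Algebra k B] =>
    TensorProduct.equivFinsuppOfBasisLeft (N := B) b
  -- coordinates commute with maps on the right factor
  have hnat : ∀ {B B' : Type u} [CommRing B] [CommRing B'] [Algebra k B] [Algebra k B']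
      (g : B →ₐ[k] B') (x : K ⊗[k] B) i,
      co B' (Algebra.TensorProduct.map (AlgHom.id k K) g x) i = g (co B x i) := by
    intro B B' _ _ _ _ g x i
    induction x using TensorProduct.induction_on with
    | zero => simp [co]
    | add x y hx hy => simp only [map_add, Finsupp.add_apply, hx, hy]
    | tmul a m => simp [co, Algebra.TensorProduct.map_tmul]
  have : Nontrivial (K ⊗[k] A) := ⟨⟨1, 0, fun h => by
    obtain ⟨i, hi⟩ : ∃ i, b.repr 1 i ≠ 0 := by
      by_contra hc
      exact one_ne_zero (α := K) (b.repr.map_eq_zero_iff.1 (Finsupp.ext (by simpa using hc)))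
    have h1 := congrArg (fun x => co A x i) h
    simp [co, Algebra.TensorProduct.one_def, hi] at h1⟩⟩
  suffices h : ∀ z w : K ⊗[k] A, z * w = 0 → z = 0 ∨ w = 0 by
    have : NoZeroDivisors (K ⊗[k] A) := ⟨fun {z w} => h z w⟩
    exact NoZeroDivisors.to_isDomain _
  intro z w hzw
  by_contra hcon
  rw [not_or] at hcon
  obtain ⟨i, hi⟩ : ∃ i, co A z i ≠ 0 := by
    by_contra hc
    exact hcon.1 ((co A).map_eq_zero_iff.1 (Finsupp.ext (by simpa using hc)))
  obtain ⟨j, hj⟩ : ∃ j, co A w j ≠ 0 := by
    by_contra hc
    exact hcon.2 ((co A).map_eq_zero_iff.1 (Finsupp.ext (by simpa using hc)))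
  let S : Finset A := (co A z).support.image (co A z) ∪ (co A w).support.image (co A w)
  let B := Algebra.adjoin k (S : Set A)
  have : Algebra.FiniteType k B := (Subalgebra.fg_iff_finiteType B).mp (Subalgebra.fg_adjoin_finset S)
  have hmem : ∀ (x : K ⊗[k] A), (co A x).support.image (co A x) ⊆ S →
      ∃ xB : K ⊗[k] B, Algebra.TensorProduct.map (AlgHom.id k K) B.val xB = x := by
    intro x hx
    have hv : ∀ l, co A x l ∈ B := fun l => by
      by_cases hl : l ∈ (co A x).support
      · exact Algebra.subset_adjoin (hx (Finset.mem_image_of_mem _ hl))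
      · rw [Finsupp.notMem_support_iff.1 hl]; exact zero_mem B
    refine ⟨(co B).symm (Finsupp.onFinset (co A x).support (fun l => ⟨co A x l, hv l⟩)
      fun l hl => Finsupp.mem_support_iff.2 fun h0 => hl (Subtype.ext h0)), ?_⟩
    apply (co A).injective
    ext l
    rw [hnat, LinearEquiv.apply_symm_apply]
    rfl
  obtain ⟨zB, hzB⟩ := hmem z Finset.subset_union_left
  obtain ⟨wB, hwB⟩ := hmem w Finset.subset_union_right
  have hinj : Function.Injective (Algebra.TensorProduct.map (AlgHom.id k K) B.val) := by
    intro x y hxy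
    apply (co B).injective
    ext l
    simpa [hnat] using congrArg (fun t => co A t l) hxy
  have hB : zB * wB = 0 := hinj (by rw [map_mul, hzB, hwB, hzw, map_zero])
  have hzi : co A z i = (co B zB i : A) := by rw [← hzB, hnat]; rfl
  have hwj : co A w j = (co B wB j : A) := by rw [← hwB, hnat]; rfl
  obtain ⟨ρ, hρ⟩ := exists_point_apply_ne_zero (k := k) (A := B)
    (f := co B zB i * co B wB j) (mul_ne_zero (fun h => hi (by rw [hzi, h]; rfl))
      (fun h => hj (by rw [hwj, h]; rfl)))
  rw [map_mul] at hρ
  let ev : K ⊗[k] B →ₐ[k] K :=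
    Algebra.TensorProduct.lift (AlgHom.id k K) ((Algebra.ofId k K).comp ρ) fun _ _ => Commute.all _ _
  have hev : ∀ (x : K ⊗[k] B) l, b.repr (ev x) l = ρ (co B x l) := by
    intro x l
    induction x using TensorProduct.induction_on with
    | zero => simp [co]
    | add x y hx hy => simp only [map_add, Finsupp.add_apply, hx, hy]
    | tmul a m =>
      have : ev (a ⊗ₜ m) = ρ m • a := by
        simp [ev, Algebra.smul_def, mul_comm, Algebra.ofId_apply]
      simp [this, co, mul_comm]
  have h0 : ev zB * ev wB = 0 := by rw [← map_mul, hB, map_zero]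
  rcases mul_eq_zero.mp h0 with h | h
  · exact left_ne_zero_of_mul hρ (by rw [← hev, h, map_zero, Finsupp.zero_apply])
  · exact right_ne_zero_of_mul hρ (by rw [← hev, h, map_zero, Finsupp.zero_apply])

end Fermat.Agent.Jacobian
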