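import Mathlib.RingTheory.Kaehler.Basic
import Mathlib.RingTheory.Ideal.Cotangent
import Mathlib.RingTheory.Filtration
import Mathlib.RingTheory.Jacobson.Ring
import Mathlib.RingTheory.FiniteType
import Mathlib.RingTheory.Localization.Ideal
import Mathlib.RingTheory.Localization.Submodule
import Mathlib.RingTheory.FiniteStability
import Mathlib.RingTheory.TensorProduct.Basic
import Mathlib.FieldTheory.IsAlgClosed.AlgebraicClosure
import Mathlib.LinearAlgebra.Basis.VectorSpace
import Fermat.Agent.Jacobian.Divisor.Ideal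

/-!
# Ideals on smooth affine curves are locally principal

If `S` is a finitely generated algebra over an algebraically closed field whose differentials are
locally cyclic, every maximal ideal, hence every ideal, is locally principal. By descent along a
free extension the same holds in all fibres `K ⊗ A`.
-/

set_option autoImplicit false

universe u

noncomputable section

open scoped TensorProduct

namespace Fermat.Agent.Jacobian

/-- The module of differentials is locally generated by one element. -/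
def OmegaLocallyCyclic (K S : Type u) [CommRing K] [CommRing S] [Algebra K S] : Prop :=
  ∀ p : Ideal S, p.IsPrime → ∃ s ∉ p, ∃ ω : Ω[S⁄K], ∀ η : Ω[S⁄K], ∃ a : S, s • η = a • ω

/-- Ideals are locally principal. -/
def IdealsLocallyPrincipal (S : Type u) [CommRing S] : Prop :=
  ∀ (J : Ideal S) (P : Ideal S), P.IsPrime → ∃ s ∉ P, ∃ f ∈ J, ∀ a ∈ J, f ∣ s * a

section AlgClosed

variable (K : Type u) [Field K] [IsAlgClosed K] {S : Type u} [CommRing S] [Algebra K S]
  [Algebra.FiniteType K S] (m : Ideal S) [m.IsMaximal]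

/-- A maximal ideal has residue field `K`. -/
theorem exists_residueHom : ∃ ρ : S →ₐ[K] K, ∀ t, t - algebraMap K S (ρ t) ∈ m := by
  let _ : Field (S ⧸ m) := Ideal.Quotient.field m
  have : Module.Finite K (S ⧸ m) := finite_of_finite_type_of_isJacobsonRing K (S ⧸ m)
  have hbij : Function.Bijective (algebraMap K (S ⧸ m)) :=
    IsAlgClosed.algebraMap_bijective_of_isIntegral
  let e := AlgEquiv.ofBijective (Algebra.ofId K (S ⧸ m)) hbij
  refine ⟨e.symm.toAlgHom.comp (Ideal.Quotient.mkₐ K m), fun t => ?_⟩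
  rw [← Ideal.Quotient.eq_zero_iff_mem, map_sub, sub_eq_zero]
  exact (e.apply_symm_apply (Ideal.Quotient.mk m t)).symm

/-- The derivation `t ↦ t - t(m)` modulo `m²`. -/
theorem exists_derivation_cotangent :
    ∃ δ : Derivation K S m.Cotangent, ∀ a : m, δ a = m.toCotangent a := by
  obtain ⟨ρ, hρ⟩ := exists_residueHom K m
  let d : S →ₗ[K] m :=
    { toFun := fun t => ⟨t - algebraMap K S (ρ t), hρ t⟩
      map_add' := fun t t' => Subtype.ext (by simp only [map_add, Submodule.coe_add]; ring)
      map_smul' := fun c t => Subtype.ext (by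
        simp only [RingHom.id_apply, Submodule.coe_smul_of_tower, Algebra.smul_def, map_mul,
          AlgHom.commutes, Algebra.algebraMap_self]
        ring) }
  refine ⟨Derivation.mk' ((m.toCotangent.restrictScalars K).comp d) fun t t' => ?_, fun a => ?_⟩
  · show m.toCotangent (d (t * t')) = t • m.toCotangent (d t') + t' • m.toCotangent (d t)
    rw [← map_smul m.toCotangent t (d t'), ← map_smul m.toCotangent t' (d t), ← map_add,
      Ideal.toCotangent_eq, pow_two]
    have : (d (t * t') : S) - ((t • d t' + t' • d t : m) : S) =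
        -((t - algebraMap K S (ρ t)) * (t' - algebraMap K S (ρ t'))) := by
      show t * t' - algebraMap K S (ρ (t * t')) -
        (t * (t' - algebraMap K S (ρ t')) + t' * (t - algebraMap K S (ρ t))) = _
      rw [map_mul, map_mul]; ring
    rw [this]
    exact neg_mem (Ideal.mul_mem_mul (hρ t) (hρ t'))
  · show m.toCotangent (d a) = m.toCotangent a
    congr 1
    refine Subtype.ext ?_
    show (a : S) - algebraMap K S (ρ a) = a
    have h0 : ρ a = 0 := by
      by_contra h
      refine (Ideal.IsMaximal.ne_top ‹_›) (Ideal.eq_top_of_isUnit_mem m ?_ ((isUnit_iff_ne_zero.2 h).map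
        (algebraMap K S)))
      simpa using sub_mem a.2 (hρ a)
    rw [h0, map_zero, sub_zero]

/-- A maximal ideal is generated by one element modulo its square, up to a unit at `m`. -/
theorem exists_generator_cotangent (hΩ : OmegaLocallyCyclic K S) :
    ∃ s ∉ m, ∃ t ∈ m, ∀ a ∈ m, ∃ c : S, s * a - c * t ∈ m ^ 2 := by
  obtain ⟨δ, hδ⟩ := exists_derivation_cotangent K m
  obtain ⟨s, hs, ω, hω⟩ := hΩ m inferInstance
  let φ := δ.liftKaehlerDifferential
  obtain ⟨t, ht⟩ := m.toCotangent_surjective (φ ω)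
  refine ⟨s, hs, t, t.2, fun a ha => ?_⟩
  obtain ⟨c, hc⟩ := hω (KaehlerDifferential.D K S a)
  refine ⟨c, ?_⟩
  have h := congrArg φ hc
  rw [map_smul, map_smul, Derivation.liftKaehlerDifferential_comp_D, ← ht,
    show δ a = m.toCotangent ⟨a, ha⟩ from hδ ⟨a, ha⟩, ← map_smul, ← map_smul,
    Ideal.toCotangent_eq] at h
  exact h

omit [Algebra.FiniteType K S] in
/-- In a Noetherian local ring with principal maximal ideal every ideal is principal. -/
theorem exists_generator_of_isPrincipal_maximalIdeal {L : Type u} [CommRing L] [IsLocalRing L]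
    [IsNoetherianRing L] {t : L} (ht : IsLocalRing.maximalIdeal L = Ideal.span {t}) (J : Ideal L) :
    ∃ f, J = Ideal.span {f} := by
  classical
  by_cases hJ : J = ⊥
  · exact ⟨0, by rw [hJ, Ideal.span_singleton_eq_bot.2 rfl]⟩
  have hex : ∃ n, ¬ J ≤ IsLocalRing.maximalIdeal L ^ n := by
    by_contra h
    push Not at h
    exact hJ (le_bot_iff.1 (le_of_le_of_eq (le_iInf h)
      (Ideal.iInf_pow_eq_bot_of_isLocalRing _ (Ideal.IsMaximal.ne_top inferInstance))))
  obtain ⟨n, hn⟩ : ∃ n, Nat.find hex = n + 1 := ⟨Nat.find hex - 1, by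
    have := (Nat.find_eq_zero hex).not.2 (by simp)
    omega⟩
  have hle : J ≤ IsLocalRing.maximalIdeal L ^ n := not_not.1 (Nat.find_min hex (by omega))
  have hnot := Nat.find_spec hex
  rw [hn] at hnot
  rw [ht, Ideal.span_singleton_pow] at hle hnot
  obtain ⟨a, ha, ha'⟩ := SetLike.not_le_iff_exists.1 hnot
  obtain ⟨u, rfl⟩ := Ideal.mem_span_singleton.1 (hle ha)
  have hu : IsUnit u := by
    by_contra hu
    have : u ∈ Ideal.span {t} := ht ▸ (IsLocalRing.mem_maximalIdeal u).2 hu
    obtain ⟨v, rfl⟩ := Ideal.mem_span_singleton.1 this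
    exact ha' (Ideal.mem_span_singleton.2 ⟨v, by ring⟩)
  refine ⟨t ^ n, le_antisymm hle ?_⟩
  rw [Ideal.span_singleton_le_iff_mem, ← Ideal.mul_unit_mem_iff_mem _ hu]
  exact ha

/-- Every ideal is locally principal. -/
theorem idealsLocallyPrincipal_of_isAlgClosed (hΩ : OmegaLocallyCyclic K S) :
    IdealsLocallyPrincipal S := by
  intro J P hP
  have : IsNoetherianRing S := Algebra.FiniteType.isNoetherianRing K S
  obtain ⟨m, hm, hPm⟩ := Ideal.exists_le_maximal P hP.ne_top
  suffices ∃ s ∉ m, ∃ f ∈ J, ∀ a ∈ J, f ∣ s * a from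
    this.imp fun s hs => ⟨fun h => hs.1 (hPm h), hs.2⟩
  have := hm
  let L := Localization.AtPrime m
  let ι : S →+* L := algebraMap S L
  have : IsNoetherianRing L := IsLocalization.isNoetherianRing m.primeCompl L inferInstance
  obtain ⟨s₁, hs₁, t, htm, ht⟩ := exists_generator_cotangent K m hΩ
  have hmL : IsLocalRing.maximalIdeal L = m.map ι :=
    (IsLocalization.AtPrime.map_eq_maximalIdeal m L).symm
  have hmax : IsLocalRing.maximalIdeal L = Ideal.span {ι t} := by
    refine le_antisymm ?_ ((Ideal.span_singleton_le_iff_mem _).2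
      (hmL ▸ Ideal.mem_map_of_mem _ htm))
    refine Submodule.le_of_le_smul_of_le_jacobson_bot (I := IsLocalRing.maximalIdeal L)
      (IsNoetherian.noetherian _) (IsLocalRing.maximalIdeal_le_jacobson _) ?_
    conv_lhs => rw [hmL]
    refine Ideal.map_le_iff_le_comap.2 fun a ha => ?_
    obtain ⟨c, hc⟩ := ht a ha
    have hs : IsUnit (ι s₁) := IsLocalization.map_units L (⟨s₁, hs₁⟩ : m.primeCompl)
    rw [Ideal.mem_comap, ← Ideal.unit_mul_mem_iff_mem _ hs, ← map_mul,
      show s₁ * a = c * t + (s₁ * a - c * t) by ring, map_add]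
    refine Submodule.add_mem_sup ?_ ?_
    · rw [map_mul]
      exact Ideal.mul_mem_left _ _ (Ideal.mem_span_singleton_self _)
    · show _ ∈ IsLocalRing.maximalIdeal L * IsLocalRing.maximalIdeal L
      rw [hmL, ← Ideal.map_mul, ← pow_two]
      exact Ideal.mem_map_of_mem _ hc
  obtain ⟨g, hg⟩ := exists_generator_of_isPrincipal_maximalIdeal hmax (J.map ι)
  obtain ⟨⟨⟨f, hfJ⟩, s₂⟩, hf⟩ :=
    (IsLocalization.mem_map_algebraMap_iff m.primeCompl L).1
      (hg ▸ Ideal.mem_span_singleton_self g : g ∈ J.map ι)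
  have hdiv : ∀ a ∈ J, ∃ s ∉ m, f ∣ s * a := by
    intro a ha
    obtain ⟨c, hc⟩ := Ideal.mem_span_singleton.1 (hg ▸ Ideal.mem_map_of_mem ι ha : ι a ∈ _)
    obtain ⟨⟨c₁, c₂⟩, hc₂⟩ := IsLocalization.surj m.primeCompl c
    obtain ⟨v, hv⟩ := (IsLocalization.eq_iff_exists m.primeCompl L).1
      (show ι ((s₂ : S) * c₂ * a) = ι (f * c₁) by
        simp only at hc₂ hf
        simp only [map_mul, ι, ← hc₂, ← hf] at hc ⊢
        rw [hc]; ring)
    exact ⟨v * (s₂ * c₂), mul_mem (s := m.primeCompl) v.2 (mul_mem (s := m.primeCompl) s₂.2 c₂.2),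
      ⟨v * c₁, by linear_combination hv⟩⟩
  obtain ⟨T, hT⟩ := IsNoetherian.noetherian J
  classical
  choose σ hσ hσd using hdiv
  have hTJ : ∀ a ∈ T, a ∈ J := fun a ha => hT ▸ Submodule.subset_span ha
  refine ⟨∏ a ∈ T.attach, σ a.1 (hTJ _ a.2),
    (prod_mem (S := m.primeCompl) (fun a _ => hσ _ _) :
      ∏ a ∈ T.attach, σ a.1 (hTJ _ a.2) ∈ m.primeCompl),
    f, hfJ, fun a ha => ?_⟩
  rw [← hT] at ha
  induction ha using Submodule.span_induction with
  | mem a ha =>
    exact (hσd a (hTJ _ ha)).trans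
      (mul_dvd_mul_right (Finset.dvd_prod_of_mem (fun b : T => σ b.1 (hTJ _ b.2))
        (Finset.mem_attach T ⟨a, ha⟩)) _)
  | zero => simp
  | add a b _ _ ha hb => rw [mul_add]; exact dvd_add ha hb
  | smul c a _ ha => rw [smul_eq_mul, mul_left_comm]; exact dvd_mul_of_dvd_right ha c

end AlgClosed

section Descent

variable (k : Type u) [Field k] (A : Type u) [CommRing A] [Algebra k A]

/-- Locally cyclic differentials are preserved by base change. -/
theorem omegaLocallyCyclic_baseChange (hΩ : OmegaLocallyCyclic k A) (L : Type u) [Field L]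
    [Algebra k L] : OmegaLocallyCyclic L (L ⊗[k] A) := by
  intro p hp
  let _ : Algebra A (L ⊗[k] A) := Algebra.TensorProduct.rightAlgebra
  have : IsScalarTower k A (L ⊗[k] A) := IsScalarTower.of_algebraMap_eq fun r =>
    ((Algebra.TensorProduct.includeRight : A →ₐ[k] L ⊗[k] A).commutes r).symm
  obtain ⟨s, hs, ω, hω⟩ := hΩ (p.comap (algebraMap A (L ⊗[k] A))) inferInstance
  refine ⟨algebraMap A (L ⊗[k] A) s, hs, KaehlerDifferential.map k L A (L ⊗[k] A) ω, fun η => ?_⟩
  suffices algebraMap A (L ⊗[k] A) s • η ∈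
      Submodule.span (L ⊗[k] A) {KaehlerDifferential.map k L A (L ⊗[k] A) ω} by
    obtain ⟨a, ha⟩ := Submodule.mem_span_singleton.1 this
    exact ⟨a, ha.symm⟩
  have key : ∀ z : L ⊗[k] A,
      algebraMap A (L ⊗[k] A) s • KaehlerDifferential.D L (L ⊗[k] A) z ∈
        Submodule.span (L ⊗[k] A) {KaehlerDifferential.map k L A (L ⊗[k] A) ω} := by
    intro z
    induction z using TensorProduct.induction_on with
    | zero => simp
    | add a b ha hb => rw [map_add, smul_add]; exact add_mem ha hb
    | tmul l a =>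
      obtain ⟨c, hc⟩ := hω (KaehlerDifferential.D k A a)
      have h := congrArg (KaehlerDifferential.map k L A (L ⊗[k] A)) hc
      rw [map_smul, map_smul, KaehlerDifferential.map_D, ← algebraMap_smul (L ⊗[k] A) s,
        ← algebraMap_smul (L ⊗[k] A) c] at h
      have hla : (l ⊗ₜ[k] a) = l • (algebraMap A (L ⊗[k] A) a) := by
        show _ = l • ((1 : L) ⊗ₜ[k] a)
        rw [TensorProduct.smul_tmul', smul_eq_mul, mul_one]
      rw [hla, Derivation.map_smul, smul_comm, h]
      exact Submodule.smul_of_tower_mem _ l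
        (Submodule.smul_mem _ _ (Submodule.mem_span_singleton_self _))
  have hη : η ∈ Submodule.span (L ⊗[k] A) (Set.range (KaehlerDifferential.D L (L ⊗[k] A))) := by
    rw [KaehlerDifferential.span_range_derivation]; trivial
  induction hη using Submodule.span_induction with
  | mem x hx => obtain ⟨z, rfl⟩ := hx; exact key z
  | zero => simp
  | add x y _ _ hx hy => rw [smul_add]; exact add_mem hx hy
  | smul a x _ hx => rw [smul_comm]; exact Submodule.smul_mem _ a hx

variable (K L : Type u) [Field K] [Field L] [Algebra k K] [Algebra k L] [Algebra K L]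
  [IsScalarTower k K L]

/-- Coordinates of `L ⊗ A` over `K ⊗ A`. -/
theorem exists_coordinates (z : L ⊗[k] A) :
    ∃ (T : Finset (Module.Basis.ofVectorSpaceIndex K L)),
      z = ∑ i ∈ T, ((Module.Basis.ofVectorSpace K L i) ⊗ₜ[k] (1 : A)) *
        Algebra.TensorProduct.map ((IsScalarTower.toAlgHom k K L)) (AlgHom.id k A)
          (TensorProduct.map (((Module.Basis.ofVectorSpace K L).coord i).restrictScalars k)
            LinearMap.id z) := by
  classical
  let b := Module.Basis.ofVectorSpace K L
  let F : Module.Basis.ofVectorSpaceIndex K L → L ⊗[k] A → L ⊗[k] A := fun i z =>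
    (b i ⊗ₜ[k] (1 : A)) * Algebra.TensorProduct.map ((IsScalarTower.toAlgHom k K L)) (AlgHom.id k A)
      (TensorProduct.map ((b.coord i).restrictScalars k) LinearMap.id z)
  suffices h : ∃ T : Finset _, ∀ T', T ⊆ T' → z = ∑ i ∈ T', F i z by
    obtain ⟨T, hT⟩ := h
    exact ⟨T, hT T (subset_refl T)⟩
  induction z using TensorProduct.induction_on with
  | zero => exact ⟨∅, fun T' _ => by simp [F]⟩
  | add x y hx hy =>
    obtain ⟨T₁, h₁⟩ := hx
    obtain ⟨T₂, h₂⟩ := hy
    refine ⟨T₁ ∪ T₂, fun T' hT' => ?_⟩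
    conv_lhs => rw [h₁ T' (Finset.union_subset_left hT'), h₂ T' (Finset.union_subset_right hT')]
    rw [← Finset.sum_add_distrib]
    exact Finset.sum_congr rfl fun i _ => by simp only [F, map_add, mul_add]
  | tmul l a =>
    refine ⟨(b.repr l).support, fun T' hT' => ?_⟩
    simp only [F, TensorProduct.map_tmul, LinearMap.id_coe, id_eq, LinearMap.coe_restrictScalars,
      Algebra.TensorProduct.map_tmul, AlgHom.coe_id, Algebra.TensorProduct.tmul_mul_tmul, one_mul,
      Module.Basis.coord_apply, IsScalarTower.coe_toAlgHom', ← TensorProduct.sum_tmul]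
    congr 1
    rw [Finset.sum_congr rfl fun i _ => (by rw [mul_comm, ← Algebra.smul_def] :
      b i * algebraMap K L (b.repr l i) = b.repr l i • b i)]
    conv_lhs => rw [← b.linearCombination_repr l]
    rw [Finsupp.linearCombination_apply, Finsupp.sum]
    exact Finset.sum_subset hT' fun i _ hi => by
      rw [Finsupp.notMem_support_iff.1 hi, zero_smul]

/-- Descent of local principality from `L ⊗ A` to `K ⊗ A`. -/
theorem idealsLocallyPrincipal_descent [Algebra.FiniteType k A]
    (hL : IdealsLocallyPrincipal (L ⊗[k] A)) (J P : Ideal (K ⊗[k] A)) (hP : P.IsPrime) :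
    ∃ s ∉ P, ∃ f ∈ J, ∀ a ∈ J, f ∣ s * a := by
  classical
  have : Algebra.FiniteType K (K ⊗[k] A) := inferInstance
  have : IsNoetherianRing (K ⊗[k] A) := Algebra.FiniteType.isNoetherianRing K (K ⊗[k] A)
  let ι : (K ⊗[k] A) →ₐ[k] (L ⊗[k] A) := Algebra.TensorProduct.map ((IsScalarTower.toAlgHom k K L)) (AlgHom.id k A)
  let b := Module.Basis.ofVectorSpace K L
  let φ : Module.Basis.ofVectorSpaceIndex K L → (L ⊗[k] A) →ₗ[k] (K ⊗[k] A) := fun i =>
    TensorProduct.map ((b.coord i).restrictScalars k) LinearMap.id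
  have hφ : ∀ i (x : (K ⊗[k] A)) (z : (L ⊗[k] A)), φ i (ι x * z) = x * φ i z := by
    intro i x z
    induction z using TensorProduct.induction_on with
    | zero => simp
    | add z z' hz hz' => rw [mul_add, map_add, map_add, hz, hz', mul_add]
    | tmul l a =>
      induction x using TensorProduct.induction_on with
      | zero => simp
      | add x x' hx hx' => rw [map_add, add_mul, map_add, hx, hx', add_mul]
      | tmul c a' =>
        simp only [φ, ι, Algebra.TensorProduct.map_tmul, AlgHom.coe_id, id_eq,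
          IsScalarTower.coe_toAlgHom', Algebra.TensorProduct.tmul_mul_tmul, TensorProduct.map_tmul]
        show (b.coord i (algebraMap K L c * l)) ⊗ₜ[k] (a' * a) = (c * b.coord i l) ⊗ₜ[k] (a' * a)
        rw [← Algebra.smul_def]
        rw [map_smul, smul_eq_mul]
  obtain ⟨T, hT⟩ := IsNoetherian.noetherian J
  -- a prime of `(L ⊗[k] A)` above `P`
  have hcomap : (P.map ι.toRingHom).comap ι.toRingHom = P := by
    refine le_antisymm (fun x hx => ?_) Ideal.le_comap_map
    obtain ⟨i₀⟩ := b.index_nonempty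
    -- pairing with a functional that is `1` on `1`
    obtain ⟨i, hi⟩ : ∃ i, b.repr 1 i ≠ 0 := by
      by_contra h
      push Not at h
      exact one_ne_zero (α := L) (b.repr.map_eq_zero_iff.1 (Finsupp.ext h))
    have hmem : ∀ z ∈ P.map ι.toRingHom, φ i z ∈ P := by
      intro z hz
      suffices ∀ w : (L ⊗[k] A), φ i (w * z) ∈ P by simpa using this 1
      rw [Ideal.map] at hz
      induction hz using Submodule.span_induction with
      | mem z hz =>
        intro w
        obtain ⟨y, hy, rfl⟩ := hz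
        rw [mul_comm]
        show φ i (ι y * w) ∈ P
        rw [hφ]
        exact P.mul_mem_right _ hy
      | zero => simp
      | add z z' _ _ hz hz' => intro w; rw [mul_add, map_add]; exact add_mem (hz w) (hz' w)
      | smul c z _ hz => intro w; rw [smul_eq_mul, ← mul_assoc]; exact hz (w * c)
    have h := hmem (ι x * 1) (by rw [mul_one]; exact hx)
    rw [hφ] at h
    refine (hP.mem_or_mem h).resolve_right fun h' => ?_
    have h1 : φ i (1 : (L ⊗[k] A)) = algebraMap K (K ⊗[k] A) (b.repr 1 i) := by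
      show (b.coord i 1) ⊗ₜ[k] (1 : A) = algebraMap K K (b.repr 1 i) ⊗ₜ[k] (1 : A)
      rfl
    rw [h1] at h'
    exact hP.ne_top (Ideal.eq_top_of_isUnit_mem _ h' ((isUnit_iff_ne_zero.2 hi).map _))
  obtain ⟨P', hP', hP'c⟩ := (Ideal.comap_map_eq_self_iff_of_isPrime P).1 hcomap
  obtain ⟨s', hs', f', hf', hdiv⟩ := hL (J.map ι.toRingHom) P' hP'
  have hιJ : ∀ a ∈ J, ι a ∈ J.map ι.toRingHom := fun a ha => Ideal.mem_map_of_mem _ ha
  have hTJ : ∀ a ∈ T, a ∈ J := fun a ha => hT ▸ Submodule.subset_span ha
  have hspan : f' ∈ Ideal.span ((T.image fun a => ι a : Finset (L ⊗[k] A)) : Set (L ⊗[k] A)) := by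
    rw [← hT, Ideal.map_span] at hf'
    simpa using hf'
  obtain ⟨d, -, hd⟩ := Submodule.mem_span_finset.1 hspan
  -- a generator among the images of `T`, or `J = 0` locally
  obtain ⟨f, hfJ, s, hs, hdiv'⟩ : ∃ f ∈ J, ∃ s ∉ P', ∀ a ∈ T, ι f ∣ s * ι a := by
    choose c hc using fun a (ha : a ∈ T) => hdiv (ι a) (hιJ a (hTJ a ha))
    by_cases hex : ∃ a, ∃ ha : a ∈ T, c a ha ∉ P'
    · obtain ⟨a, ha, hca⟩ := hex
      refine ⟨a, hTJ a ha, s' * c a ha, fun h => (hP'.mem_or_mem h).elim hs' hca,
        fun a' ha' => ⟨s' * c a' ha', ?_⟩⟩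
      linear_combination (c a ha) * hc a' ha' - (c a' ha') * hc a ha
    · push Not at hex
      have hmemP : ∀ y ∈ T.image (fun a => ι a), ∃ w ∈ P', s' * y = f' * w := fun y hy => by
        obtain ⟨a, ha, rfl⟩ := Finset.mem_image.1 hy
        exact ⟨c a ha, hex a ha, hc a ha⟩
      choose w hw hw' using hmemP
      refine ⟨0, J.zero_mem,
        s' * (s' - ∑ y ∈ (T.image fun a => ι a).attach, d y.1 * w y.1 y.2), ?_,
        fun a ha => ⟨0, ?_⟩⟩
      · intro h
        refine (hP'.mem_or_mem h).elim hs' fun h' => hs' ?_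
        simpa using add_mem h' (sum_mem (t := (T.image fun a => ι a).attach) fun y _ => P'.mul_mem_left (d y.1) (hw y.1 y.2))
      · have he : (s' - ∑ y ∈ (T.image fun a => ι a).attach, d y.1 * w y.1 y.2) * f' = 0 := by
          rw [sub_mul, Finset.sum_mul, sub_eq_zero]
          conv_lhs => rw [← hd, Finset.mul_sum]
          rw [← Finset.sum_attach]
          exact Finset.sum_congr rfl fun y _ => by
            rw [smul_eq_mul]; linear_combination (d y.1) * hw' y.1 y.2
        rw [map_zero, zero_mul]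
        linear_combination (s' - ∑ y ∈ (T.image fun a => ι a).attach, d y.1 * w y.1 y.2) *
          hc a ha + (c a ha) * he
  obtain ⟨U, hU⟩ := exists_coordinates k A K L s
  obtain ⟨i, hi⟩ : ∃ i, φ i s ∉ P := by
    by_contra h
    push Not at h
    refine hs (hU ▸ sum_mem fun i _ => P'.mul_mem_left _ ?_)
    have := h i
    rw [← hP'c, Ideal.mem_comap] at this
    exact this
  refine ⟨φ i s, hi, f, hfJ, fun a ha => ?_⟩
  rw [← hT] at ha
  induction ha using Submodule.span_induction with
  | mem a ha =>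
    obtain ⟨c, hc⟩ := hdiv' a ha
    refine ⟨φ i c, ?_⟩
    have := congrArg (φ i) hc
    rw [mul_comm s, hφ, hφ] at this
    rw [mul_comm, this]
  | zero => simp
  | add a b _ _ ha hb => rw [mul_add]; exact dvd_add ha hb
  | smul c a _ ha => rw [smul_eq_mul, mul_left_comm]; exact dvd_mul_of_dvd_right ha c

/-- In all fibres ideals are locally principal. -/
theorem fibresLocallyPrincipal_of_omega [Algebra.FiniteType k A] (hΩ : OmegaLocallyCyclic k A) :
    FibresLocallyPrincipal k A := fun K _ _ J _ P hP =>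
  idealsLocallyPrincipal_descent k A K (AlgebraicClosure K)
    (idealsLocallyPrincipal_of_isAlgClosed (AlgebraicClosure K)
      (omegaLocallyCyclic_baseChange k A hΩ (AlgebraicClosure K))) J P hP

end Descent

end Fermat.Agent.Jacobian
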