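import Fermat.Agent.Jacobian.Relative
import Fermat.Agent.Jacobian.Curve.Local
import Fermat.Agent.Jacobian.Curve.DomainTensor
import Mathlib.AlgebraicGeometry.Morphisms.Smooth
import Mathlib.RingTheory.Etale.Kaehler
import Mathlib.RingTheory.Smooth.StandardSmoothCotangent

/-!
# Affine pieces of a smooth curve in every base field

For a `k`-scheme `C` smooth of relative dimension one, differentials of the functions on an affine
open are locally cyclic and finitely many generate the algebra; hence ideals in all fibres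
`K ⊗ Γ(C, U)` are locally principal.  If `k` is algebraically closed and `C` integral these fibres
are domains, and so are their transports to the base change.
-/

set_option autoImplicit false

noncomputable section

universe u

open CategoryTheory AlgebraicGeometry TensorProduct

namespace Fermat.Agent.Jacobian

theorem omegaLocallyCyclic_of_locally {k A : Type u} [CommRing k] [CommRing A] [Algebra k A]
    [Algebra.FiniteType k A]
    (h : RingHom.Locally (RingHom.IsStandardSmoothOfRelativeDimension 1) (algebraMap k A)) :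
    OmegaLocallyCyclic k A := by
  intro p hp
  obtain ⟨s, hs, hsm⟩ := h
  obtain ⟨t, hts, htp⟩ : ∃ t ∈ s, t ∉ p := by
    by_contra hc
    push Not at hc
    exact hp.ne_top (top_le_iff.1 (hs ▸ Ideal.span_le.2 hc))
  have hT' := hsm t hts
  rw [← IsScalarTower.algebraMap_eq k A (Localization.Away t)] at hT'
  rw [RingHom.isStandardSmoothOfRelativeDimension_algebraMap] at hT'
  have := hT'
  let T := Localization.Away t
  have : Algebra.IsStandardSmooth k T :=
    Algebra.IsStandardSmoothOfRelativeDimension.isStandardSmooth 1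
  have : Nontrivial T := by
    rw [← not_subsingleton_iff_nontrivial]
    intro hsub
    obtain ⟨⟨_, n, rfl⟩, hn⟩ := (IsLocalization.eq_iff_exists (Submonoid.powers t) T).1
      (Subsingleton.elim (algebraMap A T 1) (algebraMap A T 0))
    simp only [mul_one, mul_zero] at hn
    exact htp (hp.mem_of_pow_mem n (hn ▸ p.zero_mem))
  let B := Module.Free.chooseBasis T Ω[T⁄k]
  have hcard : Fintype.card (Module.Free.ChooseBasisIndex T Ω[T⁄k]) = 1 := by
    have h1 := Algebra.IsStandardSmoothOfRelativeDimension.rank_kaehlerDifferential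
      (R := k) (S := T) 1
    rw [rank_eq_card_basis B] at h1
    exact_mod_cast h1
  obtain ⟨i₀, hi₀⟩ := Fintype.card_eq_one_iff.1 hcard
  have hgen : ∀ z : Ω[T⁄k], ∃ a : T, z = a • B i₀ := fun z => by
    refine ⟨B.repr z i₀, ?_⟩
    conv_lhs => rw [← B.sum_repr z]
    exact Finset.sum_eq_single i₀ (fun j _ hj => absurd (hi₀ j) hj) (by simp)
  let φ := KaehlerDifferential.map k k A T
  obtain ⟨⟨ω, ⟨_, n, rfl⟩⟩, hω⟩ := IsLocalizedModule.surj (Submonoid.powers t) φ (B i₀)
  simp only [Submonoid.smul_def] at hω
  have htu : IsUnit (algebraMap A T t) := IsLocalization.Away.algebraMap_isUnit t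
  have key : ∀ η : Ω[A⁄k], ∃ m : ℕ, ∃ a : A, t ^ m • η = a • ω := by
    intro η
    obtain ⟨a', ha'⟩ := hgen (φ η)
    obtain ⟨v, hv⟩ := (htu.pow n).exists_left_inv
    obtain ⟨⟨a, ⟨_, m, rfl⟩⟩, ha⟩ := IsLocalization.surj (Submonoid.powers t) (a' * v)
    simp only at ha
    have h2 : φ (t ^ m • η) = φ (a • ω) := by
      rw [map_smul, map_smul, ← hω, ha', ← algebraMap_smul T (t ^ m), ← algebraMap_smul T a,
        ← algebraMap_smul T (t ^ n), smul_smul, smul_smul, ← ha, map_pow, map_pow]
      congr 1
      rw [map_pow] at *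
      linear_combination -((algebraMap A T t) ^ m * a') * hv
    obtain ⟨⟨_, l, rfl⟩, hl⟩ := (IsLocalizedModule.eq_iff_exists (Submonoid.powers t) φ).1 h2
    simp only [Submonoid.smul_def, smul_smul] at hl
    exact ⟨l + m, t ^ l * a, by rw [pow_add]; exact hl⟩
  obtain ⟨G, hG⟩ := Module.Finite.fg_top (R := A) (M := Ω[A⁄k])
  choose m a hma using key
  refine ⟨t ^ ∑ g ∈ G, m g, fun h => htp (hp.mem_of_pow_mem _ h), ω, fun η => ?_⟩
  have hη : η ∈ Submodule.span A (G : Set Ω[A⁄k]) := hG ▸ Submodule.mem_top
  induction hη using Submodule.span_induction with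
  | mem g hg =>
    have hle : m g ≤ ∑ g ∈ G, m g := Finset.single_le_sum (fun _ _ => Nat.zero_le _) hg
    refine ⟨t ^ (∑ g ∈ G, m g - m g) * a g, ?_⟩
    rw [mul_smul, ← hma, ← mul_smul, ← pow_add, Nat.sub_add_cancel hle]
  | zero => exact ⟨0, by simp⟩
  | add x y _ _ hx hy =>
    obtain ⟨a₁, h₁⟩ := hx; obtain ⟨a₂, h₂⟩ := hy
    exact ⟨a₁ + a₂, by rw [smul_add, h₁, h₂, add_smul]⟩
  | smul c x _ hx =>
    obtain ⟨a₁, h₁⟩ := hx
    exact ⟨c * a₁, by rw [smul_comm, h₁, mul_smul]⟩

variable {k : Type u} [Field k] {C : Scheme.{u}} (c : C ⟶ Spec (CommRingCat.of k))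

theorem baseHom_eq_comp (U : C.Opens) :
    baseHom c U = (c.appLE ⊤ U le_top).hom.comp
      (Scheme.ΓSpecIso (CommRingCat.of k)).inv.hom := rfl

theorem finiteType_fun [LocallyOfFiniteType c] {U : C.Opens} (hU : IsAffineOpen U) :
    Algebra.FiniteType k (Fun c U) := by
  have h := (HasRingHomProperty.iff_appLE (P := @LocallyOfFiniteType.{u}) (f := c)).1 ‹_›
    ⟨⊤, isAffineOpen_top _⟩ ⟨U, hU⟩ le_top
  have hi : (Scheme.ΓSpecIso (CommRingCat.of k)).inv.hom.FiniteType :=
    RingHom.FiniteType.of_surjective _
      (Scheme.ΓSpecIso (CommRingCat.of k)).commRingCatIsoToRingEquiv.symm.surjective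
  exact RingHom.finiteType_algebraMap.1
    (show (baseHom c U).FiniteType from RingHom.FiniteType.comp h hi)

theorem locally_isStandardSmooth_fun [SmoothOfRelativeDimension 1 c] {U : C.Opens}
    (hU : IsAffineOpen U) :
    RingHom.Locally (RingHom.IsStandardSmoothOfRelativeDimension 1)
      (algebraMap k (Fun c U)) := by
  have h := (HasRingHomProperty.iff_appLE (P := @SmoothOfRelativeDimension 1) (f := c)).1 ‹_›
    ⟨⊤, isAffineOpen_top _⟩ ⟨U, hU⟩ le_top
  exact (RingHom.locally_respectsIso
    (RingHom.isStandardSmoothOfRelativeDimension_respectsIso (n := 1))).2 _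
    (Scheme.ΓSpecIso (CommRingCat.of k)).commRingCatIsoToRingEquiv.symm h

/-- On an affine open of a smooth curve the differentials are locally cyclic. -/
theorem omegaLocallyCyclic_fun [SmoothOfRelativeDimension 1 c] {U : C.Opens}
    (hU : IsAffineOpen U) : OmegaLocallyCyclic k (Fun c U) := by
  have : Smooth c := SmoothOfRelativeDimension.smooth 1 c
  have := finiteType_fun c hU
  exact omegaLocallyCyclic_of_locally (locally_isStandardSmooth_fun c hU)

/-- In all fibres ideals of an affine piece of a smooth curve are locally principal. -/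
theorem fibresLocallyPrincipal_fun [SmoothOfRelativeDimension 1 c] {U : C.Opens}
    (hU : IsAffineOpen U) : FibresLocallyPrincipal k (Fun c U) := by
  have : Smooth c := SmoothOfRelativeDimension.smooth 1 c
  have := finiteType_fun c hU
  exact fibresLocallyPrincipal_of_omega k (Fun c U) (omegaLocallyCyclic_fun c hU)

theorem isDomain_fun [IsIntegral C] (U : C.Opens) [Nonempty U] : IsDomain (Fun c U) :=
  inferInstanceAs (IsDomain Γ(C, U))

/-- The affine pieces stay integral over every field extension. -/
theorem isDomain_fieldTensor_fun [IsAlgClosed k] [IsIntegral C] (U : C.Opens) [Nonempty U]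
    (K : Type u) [Field K] [Algebra k K] : IsDomain (K ⊗[k] Fun c U) :=
  have := isDomain_fun c U
  isDomain_fieldTensor K

/-- The functions on an affine piece of the base change to a field form a domain. -/
theorem isDomain_rfun [IsAlgClosed k] [IsIntegral C] {U : C.Opens} [Nonempty U]
    (hU : IsAffineOpen U) (K : Type u) [Field K] [Algebra k K] :
    IsDomain (RFun c K (overU c K U)) :=
  have := isDomain_fieldTensor_fun c U K
  (funEquiv c K hU).symm.toMulEquiv.isDomain _

end Fermat.Agent.Jacobian
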