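import Fermat.Agent.Jacobian.Cech.ChartCR
import Fermat.Agent.Jacobian.Curve.GeomIntegral
import Mathlib.AlgebraicGeometry.Geometrically.Integral
import Mathlib.AlgebraicGeometry.Properties
import Mathlib.LinearAlgebra.TensorProduct.Tower

/-!
# Change of base between two-chart presentations, and geometric integrality

For `R → S` the map `C_S → C_R` is a base change of chart presentations.  Over an algebraically
closed field an integral curve is geometrically integral.
-/

set_option autoImplicit false

noncomputable section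

universe u

open CategoryTheory CategoryTheory.Limits AlgebraicGeometry TensorProduct

namespace Fermat.Agent.Jacobian

section CrMap

variable {k : Type u} [CommRing k] {C : Scheme.{u}} {c : C ⟶ Spec (CommRingCat.of k)}
  (R : Type u) [CommRing R] [Algebra k R] (S : Type u) [CommRing S] [Algebra k S]
  [Algebra R S] [IsScalarTower k R S]

/-- `C_S → C_R` lies over `R → S`. -/
theorem isOverBase_crMap :
    IsOverBase S (prR c R) (prR c S) (crMap c R S (IsScalarTower.toAlgHom k R S)) :=
  fun h a => pb_crMap_scalar c R S _ h a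

/-- Functions on an affine piece commute with the change of base. -/
theorem bijective_funComp_crMap {U : C.Opens} (hU : IsAffineOpen U) :
    Function.Bijective (funComp (isOverBase_crMap (c := c) R S)
      (W := overU c R U) (W' := overU c S U)
      (overU_crMap c R S (IsScalarTower.toAlgHom k R S) U).ge) := by
  let e₁ : R ⊗[k] Fun c U ≃ₗ[R] Fun (prR c R) (overU c R U) := (funEquiv c R hU).toLinearEquiv
  let e : S ⊗[k] Fun c U ≃ₗ[S] S ⊗[R] Fun (prR c R) (overU c R U) :=
    (AlgebraTensorModule.cancelBaseChange k R S S (Fun c U)).symm.trans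
      (AlgebraTensorModule.congr (LinearEquiv.refl S S) e₁)
  have h : ∀ z : S ⊗[k] Fun c U, funComp (isOverBase_crMap (c := c) R S)
      (overU_crMap c R S (IsScalarTower.toAlgHom k R S) U).ge (e z) =
        funMap c S (le_refl (overU c S U)) z := by
    intro z
    induction z using TensorProduct.induction_on with
    | zero =>
      rw [map_zero, map_zero]
      exact (map_zero (funMap c S (le_refl (overU c S U)))).symm
    | add a b ha hb =>
      rw [map_add, map_add, ha, hb]
      exact (map_add (funMap c S (le_refl (overU c S U))) a b).symm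
    | tmul s a =>
      have he : e (s ⊗ₜ a) = s ⊗ₜ[R] (e₁ (1 ⊗ₜ[k] a)) := by
        show (AlgebraTensorModule.congr (LinearEquiv.refl S S) e₁)
          ((AlgebraTensorModule.cancelBaseChange k R S S (Fun c U)).symm (s ⊗ₜ a)) = _
        rw [AlgebraTensorModule.cancelBaseChange_symm_tmul, AlgebraTensorModule.congr_tmul]
        rfl
      rw [he, funComp_tmul, funMap_tmul]
      show scalar c S _ s * pb (crMap c R S _) _ (funMap c R (le_refl (overU c R U)) (1 ⊗ₜ a)) =
        scalar c S _ s * pb (prC c S) _ (show Γ(C, U) from a)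
      rw [funMap_tmul, map_one, one_mul]
      exact congrArg (scalar c S _ s * ·) (pb_crMap_prC c R S _ _ _ a)
  have hb : Function.Bijective (fun z => funComp (isOverBase_crMap (c := c) R S)
      (overU_crMap c R S (IsScalarTower.toAlgHom k R S) U).ge (e z)) := by
    rw [funext h]; exact bijective_funMap c S hU
  exact (Function.Bijective.of_comp_iff _ e.bijective).1 hb

/-- The change of base is a base change of presentations. -/
theorem CurveChart.chartBaseChange_crMap (D : CurveChart c) :
    ChartBaseChange (S := S) (D.baseChange R) (D.baseChange S)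
      (crMap c R S (IsScalarTower.toAlgHom k R S)) where
  over := isOverBase_crMap R S
  le₀ := (overU_crMap c R S (IsScalarTower.toAlgHom k R S) D.U₀).ge
  le₁ := (overU_crMap c R S (IsScalarTower.toAlgHom k R S) D.U₁).ge
  pb_x := pb_crMap_prC c R S _ _ _ D.x
  bij₀ := bijective_funComp_crMap R S D.affine₀
  bij₁ := bijective_funComp_crMap R S D.affine₁

end CrMap

section Integral

variable {k : Type u} [Field k] [IsAlgClosed k] {C : Scheme.{u}}
  (c : C ⟶ Spec (CommRingCat.of k)) [IsIntegral C]

/-- An open piece of the base change over a nonempty affine is integral. -/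
theorem isIntegral_overU (K : Type u) [Field K] [Algebra k K] {U : C.Opens}
    (hU : IsAffineOpen U) [Nonempty U] : IsIntegral (overU c K U).toScheme := by
  have : IsDomain Γ(CR c K, overU c K U) := isDomain_rfun c hU K
  exact IsIntegral.of_isIso (isAffineOpen_overU c K hU).isoSpec.inv

/-- The base change of an integral curve to a field is integral. -/
theorem isIntegral_CR (K : Type u) [Field K] [Algebra k K] : IsIntegral (CR c K) := by
  let ι := {U : C.Opens // IsAffineOpen U ∧ Nonempty U}
  have hcov : ∀ p : CR c K, ∃ U : ι, p ∈ overU c K U.1 := by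
    intro p
    obtain ⟨U, hU, hpU, -⟩ := exists_isAffineOpen_mem_and_subset
      (show prC c K p ∈ (⊤ : C.Opens) from trivial)
    exact ⟨⟨U, hU, ⟨⟨_, hpU⟩⟩⟩, hpU⟩
  have hint : ∀ U : ι, IsIntegral (overU c K U.1).toScheme := fun U => by
    have := U.2.2
    exact isIntegral_overU c K U.2.1
  have hne : Nonempty (CR c K) := by
    obtain ⟨x⟩ : Nonempty C := inferInstance
    obtain ⟨U, hU, hxU, -⟩ := exists_isAffineOpen_mem_and_subset
      (show x ∈ (⊤ : C.Opens) from trivial)
    have := hint ⟨U, hU, ⟨⟨x, hxU⟩⟩⟩
    obtain ⟨q⟩ : Nonempty (overU c K U).toScheme := inferInstance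
    exact ⟨q.1⟩
  have hred : IsReduced (CR c K) := by
    let 𝒰 := (CR c K).openCoverOfIsOpenCover (fun U : ι => overU c K U.1)
      (top_le_iff.mp fun p _ => TopologicalSpace.Opens.mem_iSup.2 (hcov p))
    have : ∀ i, IsReduced (𝒰.X i) := fun i =>
      haveI := hint i
      show IsReduced (overU c K i.1).toScheme from inferInstance
    exact IsReduced.of_openCover (X := CR c K) 𝒰
  have hirr : IsPreirreducible (Set.univ : Set (CR c K)) := by
    rintro A B hA hB ⟨a, -, haA⟩ ⟨b, -, hbB⟩
    obtain ⟨U, haU⟩ := hcov a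
    obtain ⟨V, hbV⟩ := hcov b
    -- a nonempty affine inside both
    obtain ⟨x, hx⟩ : ((U.1 : Set C) ∩ V.1).Nonempty :=
      nonempty_preirreducible_inter U.1.2 V.1.2
        (Set.nonempty_coe_sort.mp U.2.2) (Set.nonempty_coe_sort.mp V.2.2)
    obtain ⟨W, hW, hxW, hWle⟩ := exists_isAffineOpen_mem_and_subset
      (show x ∈ U.1 ⊓ V.1 from hx)
    have hWi := hint ⟨W, hW, ⟨⟨x, hxW⟩⟩⟩
    obtain ⟨q⟩ : Nonempty (overU c K W).toScheme := inferInstance
    have hqU : q.1 ∈ overU c K U.1 := (prC c K).preimage_mono (hWle.trans inf_le_left) q.2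
    have hqV : q.1 ∈ overU c K V.1 := (prC c K).preimage_mono (hWle.trans inf_le_right) q.2
    have key : ∀ (U : ι) (A B : Set (CR c K)), IsOpen A → IsOpen B →
        (∃ a ∈ overU c K U.1, a ∈ A) → (∃ b ∈ overU c K U.1, b ∈ B) →
        ∃ z ∈ overU c K U.1, z ∈ A ∩ B := by
      intro U A B hA hB ⟨a, haU, haA⟩ ⟨b, hbU, hbB⟩
      have := hint U
      have : PreirreducibleSpace ↥(overU c K U.1) :=
        (irreducibleSpace_of_isIntegral (X := (overU c K U.1).toScheme)).toPreirreducibleSpace
      obtain ⟨z, hzA, hzB⟩ := nonempty_preirreducible_inter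
        (X := ↥(overU c K U.1)) (hA.preimage (continuous_subtype_val))
        (hB.preimage (continuous_subtype_val)) ⟨⟨a, haU⟩, haA⟩ ⟨⟨b, hbU⟩, hbB⟩
      exact ⟨z.1, z.2, hzA, hzB⟩
    obtain ⟨z, hzU, hzA, hzV⟩ :=
      key U A (overU c K V.1) hA (overU c K V.1).2 ⟨a, haU, haA⟩ ⟨q.1, hqU, hqV⟩
    obtain ⟨w, -, hwA, hwB⟩ := key V A B hA hB ⟨z, hzV, hzA⟩ ⟨b, hbV, hbB⟩
    exact ⟨w, trivial, hwA, hwB⟩
  have : PreirreducibleSpace (CR c K) := ⟨hirr⟩
  have : IrreducibleSpace (CR c K) := ⟨hne⟩
  exact isIntegral_of_irreducibleSpace_of_isReduced (CR c K)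

/-- An integral curve over an algebraically closed field is geometrically integral. -/
theorem geometricallyIntegral_of_isAlgClosed : GeometricallyIntegral c := by
  refine ⟨geometrically_iff_of_commRing.mpr fun K _ _ Y fst snd hP => ?_⟩
  exact @IsIntegral.of_isIso _ _ (isIntegral_CR c K) hP.isoPullback.inv (Iso.isIso_inv hP.isoPullback)

end Integral

end Fermat.Agent.Jacobian
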