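import Fermat.Agent.Jacobian.Cocycle
import Mathlib.AlgebraicGeometry.AffineScheme
import Mathlib.RingTheory.Finiteness.Basic
import Mathlib.LinearAlgebra.FreeModule.Basic
import Mathlib.Algebra.Polynomial.Eval.Defs

/-!
# Two-chart presentations of a curve

Two affine opens `U₀`, `U₁` covering the curve, each finite free over a polynomial line, meeting in
the principal open cut out by either coordinate, the coordinates being inverse to each other.
-/

set_option autoImplicit false

noncomputable section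

universe u

open CategoryTheory AlgebraicGeometry Polynomial

namespace Fermat.Agent.Jacobian

variable {k : Type u} [CommRing k] {C : Scheme.{u}}

/-- The structure map `k → Γ(C, U)` of a `k`-scheme. -/
def baseHom (c : C ⟶ Spec (CommRingCat.of k)) (U : C.Opens) : k →+* Γ(C, U) :=
  (pb c (U := ⊤) (V := U) le_top).comp (Scheme.ΓSpecIso (CommRingCat.of k)).inv.hom

@[simp] lemma res_baseHom (c : C ⟶ Spec (CommRingCat.of k)) {U V : C.Opens} (h : V ≤ U) (a : k) :
    res h (baseHom c U a) = baseHom c V a :=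
  res_pb c (U := ⊤) (V := U) le_top h _

/-- The map `k[X] → Γ(C, U)` given by a function. -/
def lineHom (c : C ⟶ Spec (CommRingCat.of k)) {U : C.Opens} (x : Γ(C, U)) :
    k[X] →+* Γ(C, U) :=
  eval₂RingHom (baseHom c U) x

/-- A two-chart presentation of a curve, finite free over the projective line. -/
structure CurveChart (c : C ⟶ Spec (CommRingCat.of k)) : Type u where
  U₀ : C.Opens
  U₁ : C.Opens
  affine₀ : IsAffineOpen U₀
  affine₁ : IsAffineOpen U₁
  cover : U₀ ⊔ U₁ = ⊤
  x : Γ(C, U₀)
  y : Γ(C, U₁)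
  inf_eq₀ : U₀ ⊓ U₁ = C.basicOpen x
  inf_eq₁ : U₀ ⊓ U₁ = C.basicOpen y
  mul_eq : res (inf_le_left : U₀ ⊓ U₁ ≤ U₀) x * res (inf_le_right : U₀ ⊓ U₁ ≤ U₁) y = 1
  finite₀ : (lineHom c x).Finite
  finite₁ : (lineHom c y).Finite
  free₀ : @Module.Free k[X] Γ(C, U₀) _ _ (lineHom c x).toModule
  free₁ : @Module.Free k[X] Γ(C, U₁) _ _ (lineHom c y).toModule

end Fermat.Agent.Jacobian
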