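import Fermat.Agent.Jacobian.Curve.Exists
import Fermat.Agent.Jacobian.Represent.Defs

/-!
# Existence of charts adapted to a base point
-/

set_option autoImplicit false
set_option linter.unusedSectionVars false

noncomputable section

universe u

open CategoryTheory AlgebraicGeometry TopologicalSpace AlgebraicCurve NeronModelInfra nonZeroDivisors

namespace Fermat.Agent.Jacobian

variable {k : Type u} [Field k] {C : Scheme.{u}}

theorem mem_of_top_le_preimage {X Y : Scheme.{u}} (p : X ⟶ Y) {U : Y.Opens}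
    (e : (⊤ : X.Opens) ≤ p ⁻¹ᵁ U) (x : X) : p x ∈ U :=
  e (Set.mem_univ x)

/-- A function vanishes at a `k`-point iff it is not invertible there. -/
theorem pb_point_eq_zero_iff (p : Spec (CommRingCat.of k) ⟶ C) {U : C.Opens}
    (e : (⊤ : (Spec (CommRingCat.of k)).Opens) ≤ p ⁻¹ᵁ U) (a : Γ(C, U)) :
    pb p e a = 0 ↔ ¬ IsUnit (C.presheaf.germ U (p (IsLocalRing.closedPoint k))
      (mem_of_top_le_preimage p e _) a) := by
  suffices key : ∀ x : Spec (CommRingCat.of k), pb p e a = 0 ↔
      ¬ IsUnit (C.presheaf.germ U (p x) (mem_of_top_le_preimage p e x) a) from key _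
  intro x
  have hF : IsField Γ(Spec (CommRingCat.of k), ⊤) :=
    MulEquiv.isField (Field.toIsField k)
      (Scheme.ΓSpecIso (CommRingCat.of k)).commRingCatIsoToRingEquiv.toMulEquiv
  have hgerm : p.stalkMap x (C.presheaf.germ U (p x) (mem_of_top_le_preimage p e x) a) =
        (Spec (CommRingCat.of k)).presheaf.germ ⊤ x trivial (pb p e a) := by
    refine (Scheme.Hom.germ_stalkMap_apply p U x _ a).trans ?_
    exact ((Spec (CommRingCat.of k)).presheaf.germ_res_apply (homOfLE e) x trivial _).symm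
  constructor
  · intro h hu
    have h2 : IsUnit (p.stalkMap x (C.presheaf.germ U (p x) (mem_of_top_le_preimage p e x) a)) :=
      hu.map _
    rw [hgerm, h, map_zero] at h2
    exact not_isUnit_zero h2
  · intro h
    by_contra hne
    obtain ⟨b, hb⟩ := hF.mul_inv_cancel hne
    have hu : IsUnit (p.stalkMap x (C.presheaf.germ U (p x) (mem_of_top_le_preimage p e x) a)) := by
      rw [hgerm]
      exact (IsUnit.of_mul_eq_one b hb).map _
    exact h (isUnit_of_map_unit _ _ hu)

variable [IsAlgClosed k] [IsIntegral C] {c : C ⟶ Spec (CommRingCat.of k)}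
  [SmoothOfRelativeDimension 1 c] [IsProper c]

/-- Charts adapted to a base point exist. -/
theorem nonempty_epsChart (ε : SchemeHomOver (𝟙 (Spec (CommRingCat.of k))) c) :
    Nonempty (EpsChart c ε) := by
  set P := ε.1 (IsLocalRing.closedPoint k) with hPdef
  have hP : IsClosed ({P} : Set C) := isClosed_range_section c ε.2
  have hrange : ∀ y, ε.1 y = P := fun y =>
    congrArg ε.1 (Subsingleton.elim (α := PrimeSpectrum k) _ _)
  obtain ⟨D, hD⟩ := exists_curveChart_compl c hP
  have hU₀ : ∀ z : C, z ∈ D.U₀ ↔ z ≠ P := fun z => Set.ext_iff.1 hD z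
  have hPU₁ : P ∈ D.U₁ := by
    rcases (D.cover.ge (Set.mem_univ P) : P ∈ D.U₀ ⊔ D.U₁) with h | h
    · exact absurd rfl ((hU₀ P).1 h)
    · exact h
  let vP := placeOf c P hP
  obtain ⟨t, ht0, ht⟩ := Fermat.Agent.Curve.exists_uniformizer vP
  let pt : Place k (FF c) → C := fun v => ((pointPlaceEquiv c).symm v).1
  have hpt : ∀ (z : C) (hz : IsClosed ({z} : Set C)), pt (placeOf c z hz) = z := fun z hz => by
    show ((pointPlaceEquiv c).symm (pointPlaceEquiv c ⟨z, hz⟩)).1 = z
    rw [Equiv.symm_apply_apply]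
  have hbad : ({v : Place k (FF c) | v.ord t ≠ 0} \ {vP}).Finite :=
    (Fermat.Agent.Curve.finite_ord_ne_zero t).subset Set.sdiff_subset
  have hbadcl : IsClosed (pt '' ({v | v.ord t ≠ 0} \ {vP})) := by
    rw [← Set.biUnion_of_singleton (pt '' ({v | v.ord t ≠ 0} \ {vP}))]
    refine (hbad.image pt).isClosed_biUnion ?_
    rintro _ ⟨v, -, rfl⟩
    exact ((pointPlaceEquiv c).symm v).2
  let V : C.Opens := D.U₁ ⊓ ⟨(pt '' ({v | v.ord t ≠ 0} \ {vP}))ᶜ, hbadcl.isOpen_compl⟩
  have hPV : P ∈ V := by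
    refine ⟨hPU₁, ?_⟩
    rintro ⟨v, ⟨-, hv⟩, hvP⟩
    apply hv
    show v = vP
    apply (pointPlaceEquiv c).symm.injective
    apply Subtype.ext
    show pt v = pt vP
    rw [hvP, hpt]
  obtain ⟨_, ⟨W, hW, rfl⟩, hPW, hWV⟩ :=
    C.isBasis_affineOpens.exists_subset_of_mem_open hPV V.isOpen
  have : Nonempty W := ⟨⟨P, hPW⟩⟩
  have hordW : ∀ (z : C) (hz : IsClosed ({z} : Set C)), z ∈ W → z ≠ P →
      (placeOf c z hz).ord t = 0 := by
    intro z hz hzW hzP
    by_contra hne
    exact (hWV hzW).2 ⟨placeOf c z hz, ⟨hne, fun h => hzP (placeOf_injective c h)⟩, hpt z hz⟩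
  obtain ⟨π, hπ⟩ := exists_toFF_eq c W t fun z hz hzW =>
    Fermat.Agent.Curve.mem_of_ord_nonneg _ (by
      by_cases hzP : z = P
      · subst hzP; exact le_of_lt (by rw [ht]; exact one_pos)
      · exact (hordW z hz hzW hzP).ge)
  have heW : ε.1 ⁻¹ᵁ W = ⊤ := top_le_iff.1 fun y _ => show ε.1 y ∈ W by rw [hrange y]; exact hPW
  refine ⟨
    { D with
      W := W
      affineW := hW
      W_le := fun z hz => (hWV hz).1
      cover_W := top_le_iff.1 fun z _ => ?_
      eps_U₀ := eq_bot_iff.2 fun y hy => absurd (hrange y) ((hU₀ _).1 hy)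
      compl_U₀ := fun z hz => ⟨IsLocalRing.closedPoint k, (not_not.1 fun h => hz ((hU₀ z).2
        (fun h' => h h'.symm))).trans rfl⟩
      eps_W := heW
      π := π
      π_eps := ?_
      π_gen := fun a ha => ?_
      π_regular := fun V' hV' => ?_
      π_unit := ?_ }⟩
  · by_cases h : z = P
    · exact Or.inr (h ▸ hPW)
    · exact Or.inl ((hU₀ z).2 h)
  · rw [pb_point_eq_zero_iff]
    intro hu
    have h : P ∈ regOpen c (toFF c W π)⁻¹ := ((isUnit_germ_iff c hPW π).1 hu).2
    rw [hπ, mem_regOpen_iff_ord c hP, Place.ord_inv, ht] at h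
    omega
  · by_cases ha0 : toFF c W a = 0
    · rw [(map_eq_zero_iff _ (toFF_injective c W)).1 ha0]; exact dvd_zero _
    rw [pb_point_eq_zero_iff] at ha
    have ha' : ¬ P ∈ regOpen c (toFF c W a)⁻¹ := fun h =>
      ha ((isUnit_germ_iff c hPW a).2 ⟨ha0, h⟩)
    rw [mem_regOpen_iff_ord c hP, Place.ord_inv] at ha'
    obtain ⟨b, hb⟩ := exists_toFF_eq c W (toFF c W a / t) fun z hz hzW =>
      Fermat.Agent.Curve.mem_of_ord_nonneg _ (by
        rw [Fermat.Agent.Curve.ord_div _ ha0 ht0]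
        by_cases hzP : z = P
        · subst hzP
          change 0 ≤ (placeOf c P hP).ord (toFF c W a) - (placeOf c P hP).ord t
          rw [ht]
          omega
        · rw [hordW z hz hzW hzP, sub_zero]
          exact Fermat.Agent.Curve.ord_nonneg_of_mem _ (toFF_mem_placeOf c hz hzW a))
    refine ⟨b, toFF_injective c W ?_⟩
    rw [map_mul, hπ, hb, mul_div_cancel₀ _ ht0]
  · rcases isEmpty_or_nonempty V' with hemp | hne
    · have : V' = ⊥ := eq_bot_iff.2 fun z hz => (hemp.false ⟨z, hz⟩).elim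
      subst this
      exact mem_nonZeroDivisors_iff_right.2 fun x _ => Subsingleton.elim _ _
    · refine mem_nonZeroDivisors_of_ne_zero fun h => ht0 ?_
      rw [← hπ, ← toFF_res c hV' π, h, map_zero]
  · refine C.toRingedSpace.isUnit_of_isUnit_germ _ _ fun z hz => ?_
    have : Nonempty (D.U₀ ⊓ W : C.Opens) := ⟨⟨z, hz⟩⟩
    refine (isUnit_germ_iff c hz _).2 ?_
    rw [toFF_res, hπ]
    refine ⟨ht0, ?_⟩
    by_cases hgp : z = genericPoint C
    · exact hgp ▸ genericPoint_mem_regOpen c _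
    · have hc := isClosed_of_ne_genericPoint c hgp
      rw [mem_regOpen_iff_ord c hc, Place.ord_inv, hordW z hc hz.2 ((hU₀ z).1 hz.1), neg_zero]

end Fermat.Agent.Jacobian
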