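import Fermat.Agent.Jacobian.Curve.Points
import Fermat.Agent.Curve.RiemannRoch
import Fermat.Agent.Curve.AffineModel
import Mathlib.AlgebraicGeometry.Morphisms.Affine
import Mathlib.AlgebraicGeometry.Noetherian
import Mathlib.AlgebraicGeometry.AlgClosed.Basic
import Mathlib.LinearAlgebra.FreeModule.PID
import Mathlib.Algebra.Polynomial.Lifts

/-!
# Charts of a smooth proper curve over an algebraically closed field

A nonconstant function gives two affine opens, finite free over the line; the function may be
chosen with its only pole at a prescribed closed point. The curve has infinitely many sections.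
-/

set_option autoImplicit false
set_option linter.style.haveILetI false
set_option linter.unusedSectionVars false

noncomputable section

universe u

open CategoryTheory AlgebraicGeometry TopologicalSpace AlgebraicCurve

namespace Fermat.Agent.Jacobian

section FunctionFieldLemma

variable {K F : Type*} [Field K] [Field F] [Algebra K F] [IsAlgClosed K]
  [Fermat.Agent.Curve.IsFunctionField1 K F]

/-- A function with poles only in `T`, vanishing on `S`, and a unit at `P`. -/
theorem exists_function_poles_zeros (T S : Finset (Place K F)) (hT : T.Nonempty)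
    (hTS : Disjoint T S) (P : Place K F) (hPT : P ∉ T) (hPS : P ∉ S) :
    ∃ f : F, f ≠ 0 ∧ P.ord f = 0 ∧ (∀ v ∈ S, 0 < v.ord f) ∧ ∀ v, v ∉ T → 0 ≤ v.ord f := by
  classical
  obtain ⟨d, hd⟩ := Fermat.Agent.Curve.exists_specialIndex_eq_zero (K := K) (F := F)
  set n : ℕ := d.natAbs + S.card + 1
  set D : Divisor K F :=
    (∑ v ∈ T, Finsupp.single v (n : ℤ)) - ∑ v ∈ S, Finsupp.single v (1 : ℤ)
  have hDv : ∀ v, D v = (if v ∈ T then (n : ℤ) else 0) - (if v ∈ S then 1 else 0) := fun v => by
    simp [D, Finsupp.single_apply, Finset.sum_ite_eq']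
  have hdeg : ∀ (R : Finset (Place K F)) (m : ℤ),
      Divisor.degree (∑ v ∈ R, Finsupp.single v m : Divisor K F) = R.card * m := by
    intro R m
    rw [map_sum]
    simp [Divisor.degree_single, Fermat.Agent.Curve.deg_eq_one]
  have hD : Divisor.degree D = T.card * n - S.card := by
    rw [map_sub, hdeg, hdeg, mul_one]
  have hn : (n : ℤ) ≤ T.card * n :=
    le_mul_of_one_le_left (by positivity) (by exact_mod_cast hT.card_pos)
  have hdn : d + S.card + 1 ≤ n := by
    have hn2 : (n : ℤ) = |d| + S.card + 1 := by simp [n]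
    have := le_abs_self d
    omega
  set D' : Divisor K F := D - Finsupp.single P 1
  have hD' : Divisor.degree D' = Divisor.degree D - 1 := by
    rw [map_sub, Divisor.degree_single, Fermat.Agent.Curve.deg_eq_one]
    simp
  have h1 := Fermat.Agent.Curve.ell_sub_specialIndex D
  have h2 := Fermat.Agent.Curve.ell_sub_specialIndex D'
  rw [hd D (by omega)] at h1
  rw [hd D' (by omega)] at h2
  obtain ⟨f, hfD, hfD'⟩ : ∃ f ∈ riemannRochSpace D, f ∉ riemannRochSpace D' := by
    by_contra hcon
    push Not at hcon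
    have := Submodule.finrank_mono (fun f hf => hcon f hf)
    unfold Fermat.Agent.Curve.ell at h1 h2
    omega
  have hf0 : f ≠ 0 := fun h => hfD' (h ▸ Submodule.zero_mem _)
  have hord : ∀ v, -D v ≤ v.ord f := fun v =>
    (mem_riemannRochSpace_iff.mp hfD v).resolve_left hf0
  refine ⟨f, hf0, ?_, fun v hv => ?_, fun v hv => ?_⟩
  · have hP := hord P
    rw [hDv, if_neg hPT, if_neg hPS] at hP
    by_contra hne
    refine hfD' (mem_riemannRochSpace_iff.mpr fun v => Or.inr ?_)
    rw [Finsupp.sub_apply, Finsupp.single_apply]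
    have := hord v
    split_ifs with h
    · subst h
      rw [hDv, if_neg hPT, if_neg hPS] at this ⊢
      omega
    · omega
  · have := hord v
    rw [hDv, if_neg (fun h => Finset.disjoint_left.1 hTS h hv), if_pos hv] at this
    omega
  · have := hord v
    rw [hDv, if_neg hv] at this
    split_ifs at this <;> omega

end FunctionFieldLemma

variable {k : Type u} [Field k] [IsAlgClosed k] {C : Scheme.{u}} [IsIntegral C]
  (c : C ⟶ Spec (CommRingCat.of k)) [SmoothOfRelativeDimension 1 c] [IsProper c]

instance isFunctionField1_curve : Fermat.Agent.Curve.IsFunctionField1 k (FF c) :=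
  isFunctionField1_ff c

theorem exists_stalkToFF_genericPoint (f : FF c) :
    ∃ a, stalkToFF c (genericPoint C) a = f := by
  obtain ⟨a, b, hb, rfl⟩ := stalkToFF_div_surjective c (genericPoint C) f
  have hF : IsField (C.presheaf.stalk (genericPoint C)) := Field.toIsField C.functionField
  obtain ⟨b', hb'⟩ := hF.mul_inv_cancel (fun h : b = 0 => hb (by rw [h, map_zero]))
  refine ⟨a * b', ?_⟩
  have := congrArg (stalkToFF c (genericPoint C)) hb'
  rw [map_mul, map_one] at this
  rw [map_mul, eq_div_iff hb, mul_assoc, mul_comm (stalkToFF c (genericPoint C) b'), this, mul_one]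

theorem pointPlaceEquiv_apply (z : {x : C // IsClosed ({x} : Set C)}) :
    pointPlaceEquiv c z = placeOf c z.1 z.2 := rfl

/-- The set where a function is regular. -/
def regOpen (f : FF c) : C.Opens :=
  ⟨{z | ∃ a, stalkToFF c z a = f}, by
    let pt : Place k (FF c) → C := fun v => ((pointPlaceEquiv c).symm v).1
    have hS : {v : Place k (FF c) | v.ord f < 0}.Finite :=
      (Fermat.Agent.Curve.finite_ord_ne_zero f).subset fun v hv => ne_of_lt hv
    have heq : {z : C | ∃ a, stalkToFF c z a = f}ᶜ = pt '' {v | v.ord f < 0} := by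
      ext z
      constructor
      · intro hz
        by_cases hgp : z = genericPoint C
        · exact absurd (hgp ▸ exists_stalkToFF_genericPoint c f) hz
        have hc := isClosed_of_ne_genericPoint c hgp
        refine ⟨placeOf c z hc, ?_, ?_⟩
        · by_contra hle
          exact hz ((mem_placeOf c).1
            (Fermat.Agent.Curve.mem_of_ord_nonneg (placeOf c z hc) (not_lt.1 hle)))
        · show ((pointPlaceEquiv c).symm (pointPlaceEquiv c ⟨z, hc⟩)).1 = z
          rw [Equiv.symm_apply_apply]
      · rintro ⟨v, hv, rfl⟩ ⟨a, ha⟩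
        set p := (pointPlaceEquiv c).symm v with hp
        have hpv : placeOf c p.1 p.2 = v := by
          rw [← pointPlaceEquiv_apply c p, hp, Equiv.apply_symm_apply]
        have : f ∈ (placeOf c p.1 p.2).toValuationSubring := ⟨a, ha⟩
        rw [hpv] at this
        exact absurd (Fermat.Agent.Curve.ord_nonneg_of_mem v this) (not_le.2 hv)
    have hcl : IsClosed (pt '' {v | v.ord f < 0}) := by
      rw [← Set.biUnion_of_singleton (pt '' {v | v.ord f < 0})]
      refine (hS.image pt).isClosed_biUnion ?_
      rintro _ ⟨v, -, rfl⟩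
      exact ((pointPlaceEquiv c).symm v).2
    rw [← heq, isClosed_compl_iff] at hcl
    exact hcl⟩

theorem mem_regOpen {f : FF c} {z : C} : z ∈ regOpen c f ↔ ∃ a, stalkToFF c z a = f := Iff.rfl

theorem genericPoint_mem_regOpen (f : FF c) : genericPoint C ∈ regOpen c f :=
  exists_stalkToFF_genericPoint c f

instance nonempty_regOpen (f : FF c) : Nonempty (regOpen c f) :=
  ⟨⟨_, genericPoint_mem_regOpen c f⟩⟩

theorem mem_regOpen_iff_ord {f : FF c} {z : C} (hc : IsClosed ({z} : Set C)) :
    z ∈ regOpen c f ↔ 0 ≤ (placeOf c z hc).ord f :=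
  ⟨fun h => Fermat.Agent.Curve.ord_nonneg_of_mem _ h,
    fun h => Fermat.Agent.Curve.mem_of_ord_nonneg _ h⟩

/-- A function as a section over the open where it is regular. -/
def regFun (f : FF c) : Γ(C, regOpen c f) :=
  (exists_toFF_eq c (regOpen c f) f fun _ _ hx => hx).choose

theorem toFF_regFun (f : FF c) : toFF c (regOpen c f) (regFun c f) = f :=
  (exists_toFF_eq c (regOpen c f) f fun _ _ hx => hx).choose_spec

/-- A section is invertible at a point iff it is nonzero with inverse regular there. -/
theorem isUnit_germ_iff {U : C.Opens} [Nonempty U] {z : C} (hz : z ∈ U) (a : Γ(C, U)) :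
    IsUnit (C.presheaf.germ U z hz a) ↔ toFF c U a ≠ 0 ∧ z ∈ regOpen c (toFF c U a)⁻¹ := by
  rw [← stalkToFF_germ c hz a]
  constructor
  · intro h
    refine ⟨(h.map (stalkToFF c z)).ne_zero, ?_⟩
    obtain ⟨b, hb⟩ := h.exists_right_inv
    refine ⟨b, eq_inv_of_mul_eq_one_right ?_⟩
    rw [← map_mul, hb, map_one]
  · rintro ⟨h0, b, hb⟩
    refine IsUnit.of_mul_eq_one b (stalkToFF_injective c z ?_)
    rw [map_mul, hb, mul_inv_cancel₀ h0, map_one]

include c in
/-- A closed set missing the generic point is finite. -/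
theorem finite_of_isClosed {s : Set C} (hs : IsClosed s) (hgp : genericPoint C ∉ s) :
    s.Finite := by
  have : IsLocallyNoetherian C := LocallyOfFiniteType.isLocallyNoetherian c
  have : CompactSpace C := QuasiCompact.compactSpace_of_compactSpace c
  have : AlgebraicGeometry.IsNoetherian C := {}
  obtain ⟨T, hT, hTc, hTi, rfl⟩ := NoetherianSpace.exists_finite_set_isClosed_irreducible hs
  refine hT.sUnion fun t ht => ?_
  have hη := (hTi t ht).isGenericPoint_genericPoint (hTc t ht)
  by_cases h : (hTi t ht).genericPoint = genericPoint C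
  · exact absurd ⟨t, ht, h ▸ hη.mem⟩ hgp
  · rw [← hη.def, (isClosed_of_ne_genericPoint c h).closure_eq]
    exact Set.finite_singleton _

/-- The open where a nonconstant function is regular is affine. -/
theorem isAffineOpen_regOpen {x : FF c} (hx : Transcendental k x) :
    IsAffineOpen (regOpen c x) := by
  classical
  set U := regOpen c x
  let s : Set Γ(C, U) := {g | IsAffineOpen (C.basicOpen g)}
  have key : ∀ (P : C), IsClosed ({P} : Set C) → P ∈ U →
      ∃ g ∈ s, IsUnit (toFF c U g) ∧ P ∈ regOpen c (toFF c U g)⁻¹ := by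
    intro P hP hPU
    obtain ⟨_, ⟨W, hW, rfl⟩, hPW, hWU⟩ :=
      C.isBasis_affineOpens.exists_subset_of_mem_open hPU U.isOpen
    have : Nonempty W := ⟨⟨P, hPW⟩⟩
    have hgW : genericPoint C ∈ W := genericPoint_mem W
    have hfin : ((W : Set C)ᶜ).Finite :=
      finite_of_isClosed c W.isOpen.isClosed_compl (fun h => h hgW)
    have hSfin : {v : Place k (FF c) |
        ((pointPlaceEquiv c).symm v).1 ∈ U ∧ ((pointPlaceEquiv c).symm v).1 ∉ W}.Finite :=
      (hfin.preimage (f := fun v => ((pointPlaceEquiv c).symm v).1)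
        (fun a _ b _ h => (pointPlaceEquiv c).symm.injective (Subtype.ext h))).subset
          fun v hv => hv.2
    have hTfin : {v : Place k (FF c) | v.ord x < 0}.Finite :=
      (Fermat.Agent.Curve.finite_ord_ne_zero x).subset fun v hv => ne_of_lt hv
    obtain ⟨v₀, hv₀⟩ := Fermat.Agent.Curve.exists_place_ord_neg (K := k) hx
    obtain ⟨f, hf0, hfP, hfS, hfT⟩ := exists_function_poles_zeros hTfin.toFinset hSfin.toFinset
      ⟨v₀, hTfin.mem_toFinset.2 hv₀⟩ (Finset.disjoint_left.2 fun v hv hvS => by
        obtain ⟨hvU, -⟩ := hSfin.mem_toFinset.1 hvS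
        have := (mem_regOpen_iff_ord c ((pointPlaceEquiv c).symm v).2).1 hvU
        rw [← pointPlaceEquiv_apply c, Equiv.apply_symm_apply] at this
        exact absurd (hTfin.mem_toFinset.1 hv) (not_lt.2 this)) (placeOf c P hP)
      (fun h => absurd (hTfin.mem_toFinset.1 h) (not_lt.2 ((mem_regOpen_iff_ord c hP).1 hPU)))
      (fun h => by
        have h2 := (hSfin.mem_toFinset.1 h).2
        rw [← pointPlaceEquiv_apply c ⟨P, hP⟩, Equiv.symm_apply_apply] at h2
        exact h2 hPW)
    obtain ⟨g, hg⟩ := exists_toFF_eq c U f fun z hz hzU =>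
      Fermat.Agent.Curve.mem_of_ord_nonneg _ (hfT _ fun h =>
        absurd (hTfin.mem_toFinset.1 h) (not_lt.2 ((mem_regOpen_iff_ord c hz).1 hzU)))
    refine ⟨g, ?_, ?_⟩
    · have hle : C.basicOpen g ≤ W := by
        intro z hz
        obtain ⟨hzU, hu⟩ := (Scheme.mem_basicOpen'' _ _ _).1 hz
        by_contra hzW
        have hne : z ≠ genericPoint C := fun h => hzW (h ▸ hgW)
        have hc := isClosed_of_ne_genericPoint c hne
        have hmem : placeOf c z hc ∈ hSfin.toFinset := hSfin.mem_toFinset.2 (by
          show ((pointPlaceEquiv c).symm (placeOf c z hc)).1 ∈ U ∧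
            ((pointPlaceEquiv c).symm (placeOf c z hc)).1 ∉ W
          rw [← pointPlaceEquiv_apply c ⟨z, hc⟩, Equiv.symm_apply_apply]
          exact ⟨hzU, hzW⟩)
        have h1 := hfS _ hmem
        have h2 := (mem_regOpen_iff_ord c hc).1 ((isUnit_germ_iff c hzU g).1 hu).2
        rw [hg, Place.ord_inv] at h2
        omega
      show IsAffineOpen (C.basicOpen g)
      have heq : C.basicOpen (C.presheaf.map (homOfLE hWU).op g) = C.basicOpen g :=
        (Scheme.basicOpen_res _ _ _).trans (inf_eq_right.2 hle)
      rw [← heq]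
      exact hW.basicOpen _
    · rw [hg]
      refine ⟨isUnit_iff_ne_zero.2 hf0, (mem_regOpen_iff_ord c hP).2 ?_⟩
      rw [Place.ord_inv, hfP, neg_zero]
  refine isAffineOpen_of_isAffineOpen_basicOpen U s ?_ fun g hg => hg
  by_contra hne
  obtain ⟨m, hm, hsm⟩ := Ideal.exists_le_maximal _ hne
  let e : Γ(C, U) ≃+* (toFF c U).range :=
    RingEquiv.ofBijective _ ⟨fun a b h => toFF_injective c U (congrArg Subtype.val h),
      (toFF c U).rangeRestrict_surjective⟩
  have hI : m.map e.toRingHom ≠ ⊤ := fun h => hm.ne_top (by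
    rw [← Ideal.comap_map_of_bijective e.toRingHom e.bijective (I := m), h, Ideal.comap_top])
  obtain ⟨B, hB, hmB⟩ := Ideal.image_subset_nonunits_valuationSubring _ hI
  have hBm : ∀ g ∈ m, toFF c U g ∈ B.nonunits := fun g hg =>
    hmB ⟨e g, Ideal.mem_map_of_mem e.toRingHom hg, rfl⟩
  have hbase : ∀ a : k, algebraMap k (FF c) a ∈ B := fun a =>
    hB ⟨baseHom c U a, toFF_baseHom c U a⟩
  have hBne : B ≠ ⊤ := by
    rintro rfl
    obtain ⟨v, hv⟩ := Fermat.Agent.Curve.exists_place_ord_pos (K := k) hx
    set Q := (pointPlaceEquiv c).symm v with hQ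
    have hQv : placeOf c Q.1 Q.2 = v := by
      rw [← pointPlaceEquiv_apply c Q, hQ, Equiv.apply_symm_apply]
    obtain ⟨g, hgs, hgu, -⟩ := key Q.1 Q.2 ((mem_regOpen_iff_ord c Q.2).2 (by rw [hQv]; omega))
    have h1 := (ValuationSubring.mem_nonunits_iff _).1 (hBm g (hsm (Ideal.subset_span hgs)))
    have h2 : (⊤ : ValuationSubring (FF c)).valuation (toFF c U g)⁻¹ ≤ 1 :=
      (ValuationSubring.valuation_le_one_iff _ _).mpr trivial
    rw [map_inv₀, inv_le_one₀ (zero_lt_iff.mpr ((Valuation.ne_zero_iff _).mpr hgu.ne_zero))] at h2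
    exact not_le.mpr h1 h2
  let v := Fermat.Agent.Curve.placeOfValuationSubring B hbase hBne
  set Q := (pointPlaceEquiv c).symm v with hQ
  have hQv : placeOf c Q.1 Q.2 = v := by
    rw [← pointPlaceEquiv_apply c Q, hQ, Equiv.apply_symm_apply]
  have hQU : Q.1 ∈ U := by
    show x ∈ (placeOf c Q.1 Q.2).toValuationSubring
    rw [hQv]
    exact hB ⟨regFun c x, toFF_regFun c x⟩
  obtain ⟨g, hgs, hgu, hgQ⟩ := key Q.1 Q.2 hQU
  have h1 := (ValuationSubring.mem_nonunits_iff _).1 (hBm g (hsm (Ideal.subset_span hgs)))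
  have h2 : (toFF c U g)⁻¹ ∈ B := by
    have : (toFF c U g)⁻¹ ∈ (placeOf c Q.1 Q.2).toValuationSubring := hgQ
    rw [hQv] at this
    exact this
  have h3 := (B.valuation_le_one_iff _).mpr h2
  rw [map_inv₀, inv_le_one₀ (zero_lt_iff.mpr ((Valuation.ne_zero_iff _).mpr hgu.ne_zero))] at h3
  exact not_le.mpr h1 h3

theorem toFF_comp_lineHom (x : FF c) :
    (toFF c (regOpen c x)).comp (lineHom c (regFun c x)) =
      (Polynomial.aeval x : Polynomial k →ₐ[k] FF c).toRingHom := by
  apply Polynomial.ringHom_ext
  · intro a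
    simp [lineHom, toFF_baseHom]
  · simp [lineHom, toFF_regFun]

/-- The functions regular away from the poles of `x` are finite over `k[x]`. -/
theorem finite_lineHom {x : FF c} (hx : Transcendental k x) :
    (lineHom c (regFun c x)).Finite := by
  set U := regOpen c x
  have hft : (lineHom c (regFun c x)).FiniteType := by
    refine RingHom.FiniteType.of_comp_finiteType (f := Polynomial.C) ?_
    have hcomp : (lineHom c (regFun c x)).comp Polynomial.C = baseHom c U :=
      RingHom.ext fun a => by simp [lineHom, U]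
    rw [hcomp]
    exact (c.finiteType_appLE (isAffineOpen_top _) (isAffineOpen_regOpen c hx) le_top).comp
      (RingHom.FiniteType.of_surjective _
        (Scheme.ΓSpecIso (CommRingCat.of k)).commRingCatIsoToRingEquiv.symm.surjective)
  refine RingHom.Finite.of_isIntegral_of_finiteType (fun a => ?_) hft
  have hmem : toFF c U a ∈ Fermat.Agent.Curve.affineModel k x :=
    (Fermat.Agent.Curve.mem_affineModel_iff x).2 fun v hv => by
      set Q := (pointPlaceEquiv c).symm v with hQ
      have hQv : placeOf c Q.1 Q.2 = v := by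
        rw [← pointPlaceEquiv_apply c Q, hQ, Equiv.apply_symm_apply]
      rw [← hQv] at hv ⊢
      exact toFF_mem_placeOf c Q.2 hv a
  obtain ⟨q, hq, hq0⟩ := hmem
  let π : Polynomial k →+* Algebra.adjoin k ({x} : Set (FF c)) :=
    (Polynomial.aeval (⟨x, Algebra.self_mem_adjoin_singleton k x⟩ :
      Algebra.adjoin k ({x} : Set (FF c)))).toRingHom
  have hπv : ∀ p, (π p : FF c) = Polynomial.aeval x p := fun p => by
    simp [π]
  have hπ : Function.Surjective π := fun z => by
    obtain ⟨p, hp⟩ : ∃ p, Polynomial.aeval x p = (z : FF c) :=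
      (Algebra.adjoin_singleton_eq_range_aeval k x).le z.2
    exact ⟨p, Subtype.ext ((hπv p).trans hp)⟩
  obtain ⟨q', hq', -, hq'm⟩ :=
    Polynomial.lifts_and_degree_eq_and_monic (Polynomial.map_surjective π hπ q) hq
  refine ⟨q', hq'm, toFF_injective c U ?_⟩
  rw [map_zero, Polynomial.hom_eval₂, toFF_comp_lineHom]
  rw [← hq', Polynomial.eval₂_map] at hq0
  have hπ' : (Polynomial.aeval x : Polynomial k →ₐ[k] FF c).toRingHom =
      (algebraMap (Algebra.adjoin k ({x} : Set (FF c))) (FF c)).comp π :=
    RingHom.ext fun p => (hπv p).symm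
  rw [hπ']
  exact hq0

/-- The functions regular away from the poles of `x` are free over `k[x]`. -/
theorem free_lineHom {x : FF c} (hx : Transcendental k x) :
    @Module.Free (Polynomial k) Γ(C, regOpen c x) _ _ (lineHom c (regFun c x)).toModule := by
  letI : Algebra (Polynomial k) Γ(C, regOpen c x) := (lineHom c (regFun c x)).toAlgebra
  haveI : Module.Finite (Polynomial k) Γ(C, regOpen c x) := finite_lineHom c hx
  have hinj : Function.Injective (lineHom c (regFun c x)) := by
    refine Function.Injective.of_comp (f := toFF c (regOpen c x)) ?_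
    rw [← RingHom.coe_comp, toFF_comp_lineHom]
    exact transcendental_iff_injective.1 hx
  haveI : Module.IsTorsionFree (Polynomial k) Γ(C, regOpen c x) :=
    Module.isTorsionFree_iff_algebraMap_injective.2 hinj
  exact Module.free_of_finite_type_torsion_free'

theorem transcendental_inv {x : FF c} (hx : Transcendental k x) : Transcendental k x⁻¹ :=
  fun h => hx (by simpa using h.inv)

/-- The chart of a nonconstant function. -/
def chartOfFunction {x : FF c} (hx : Transcendental k x) : CurveChart c where
  U₀ := regOpen c x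
  U₁ := regOpen c x⁻¹
  affine₀ := isAffineOpen_regOpen c hx
  affine₁ := isAffineOpen_regOpen c (transcendental_inv c hx)
  cover := by
    refine top_le_iff.1 fun z _ => ?_
    by_cases hgp : z = genericPoint C
    · exact Or.inl (hgp ▸ genericPoint_mem_regOpen c x)
    have hc := isClosed_of_ne_genericPoint c hgp
    rcases (placeOf c z hc).toValuationSubring.mem_or_inv_mem x with h | h
    · exact Or.inl h
    · exact Or.inr h
  x := regFun c x
  y := regFun c x⁻¹
  inf_eq₀ := by
    ext z
    refine ⟨fun ⟨h0, h1⟩ => (Scheme.mem_basicOpen'' _ _ _).2 ⟨h0, (isUnit_germ_iff c h0 _).2 ?_⟩,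
      fun h => ?_⟩
    · rw [toFF_regFun]
      exact ⟨fun h => hx (h ▸ isAlgebraic_zero), h1⟩
    · obtain ⟨h0, hu⟩ := (Scheme.mem_basicOpen'' _ _ _).1 h
      have h2 := ((isUnit_germ_iff c h0 _).1 hu).2
      rw [toFF_regFun] at h2
      exact ⟨h0, h2⟩
  inf_eq₁ := by
    ext z
    refine ⟨fun ⟨h0, h1⟩ => (Scheme.mem_basicOpen'' _ _ _).2 ⟨h1, (isUnit_germ_iff c h1 _).2 ?_⟩,
      fun h => ?_⟩
    · rw [toFF_regFun, inv_inv]
      exact ⟨inv_ne_zero fun h => hx (h ▸ isAlgebraic_zero), h0⟩
    · obtain ⟨h1, hu⟩ := (Scheme.mem_basicOpen'' _ _ _).1 h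
      have h2 := ((isUnit_germ_iff c h1 _).1 hu).2
      rw [toFF_regFun, inv_inv] at h2
      exact ⟨h2, h1⟩
  mul_eq := by
    haveI : Nonempty (regOpen c x ⊓ regOpen c x⁻¹ : C.Opens) :=
      ⟨⟨_, genericPoint_mem_regOpen c x, genericPoint_mem_regOpen c x⁻¹⟩⟩
    apply toFF_injective c
    rw [map_mul, toFF_res, toFF_res, toFF_regFun, toFF_regFun, map_one]
    exact mul_inv_cancel₀ fun h => hx (h ▸ isAlgebraic_zero)
  finite₀ := finite_lineHom c hx
  finite₁ := finite_lineHom c (transcendental_inv c hx)
  free₀ := free_lineHom c hx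
  free₁ := free_lineHom c (transcendental_inv c hx)

/-- A chart whose first open is the complement of a given closed point. -/
theorem exists_curveChart_compl {ε : C} (hε : IsClosed ({ε} : Set C)) :
    ∃ D : CurveChart c, (D.U₀ : Set C) = {ε}ᶜ := by
  obtain ⟨f, hf, hpole⟩ := Fermat.Agent.Curve.exists_unique_pole (placeOf c ε hε)
  refine ⟨chartOfFunction c hf, Set.ext fun z => ?_⟩
  show z ∈ regOpen c f ↔ z ≠ ε
  by_cases hgp : z = genericPoint C
  · subst hgp
    exact iff_of_true (genericPoint_mem_regOpen c f)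
      (fun h => not_isClosed_genericPoint c (h ▸ hε))
  have hc := isClosed_of_ne_genericPoint c hgp
  rw [mem_regOpen_iff_ord c hc, ← not_lt, hpole, not_iff_not]
  exact ⟨placeOf_injective c, fun h => by subst h; rfl⟩

theorem nonempty_curveChart : Nonempty (CurveChart c) := by
  obtain ⟨x, hx, -⟩ := (isFunctionField1_ff c).exists_transcendental'
  exact ⟨chartOfFunction c hx⟩

/-- There are infinitely many places. -/
theorem infinite_place : Infinite (Place k (FF c)) := by
  obtain ⟨x, hx, -⟩ := (isFunctionField1_ff c).exists_transcendental'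
  have ht : ∀ a : k, Transcendental k (x - algebraMap k (FF c) a) := fun a h =>
    hx (by simpa using h.add (isAlgebraic_algebraMap a))
  choose v hv using fun a => Fermat.Agent.Curve.exists_place_ord_pos (K := k) (ht a)
  refine Infinite.of_injective v fun a b hab => ?_
  by_contra hne
  have h1 := hv a
  have h2 := hv b
  rw [← hab] at h2
  have hd : (x - algebraMap k (FF c) b) - (x - algebraMap k (FF c) a) =
      algebraMap k (FF c) (a - b) := by rw [map_sub]; ring
  have hne' : algebraMap k (FF c) (a - b) ≠ 0 := by simpa [sub_eq_zero] using hne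
  have h3 : Fermat.Agent.Curve.OrdGE (v a) 1
      ((x - algebraMap k (FF c) b) - (x - algebraMap k (FF c) a)) :=
    Fermat.Agent.Curve.OrdGE.sub (Fermat.Agent.Curve.ordGE_of_le_ord (by omega : (1 : ℤ) ≤ _))
      (Fermat.Agent.Curve.ordGE_of_le_ord (by omega : (1 : ℤ) ≤ _))
  rw [hd] at h3
  have h4 := h3.le_ord hne'
  rw [Fermat.Agent.Curve.ord_algebraMap] at h4
  omega

/-- Sections of the structure map are the closed points, hence the places. -/
def sectionPlaceEquiv :
    {p : Spec (CommRingCat.of k) ⟶ C // p ≫ c = 𝟙 _} ≃ Place k (FF c) :=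
  (pointEquivClosedPoint c).trans (pointPlaceEquiv c)

theorem infinite_sections : Infinite {p : Spec (CommRingCat.of k) ⟶ C // p ≫ c = 𝟙 _} :=
  haveI := infinite_place c
  (sectionPlaceEquiv c).infinite_iff.2 inferInstance

theorem isClosed_range_section {p : Spec (CommRingCat.of k) ⟶ C} (hp : p ≫ c = 𝟙 _) :
    IsClosed ({p (IsLocalRing.closedPoint k)} : Set C) :=
  ((pointEquivClosedPoint c) ⟨p, hp⟩).2

/-- A chart whose first open is the complement of a given section. -/
theorem exists_curveChart_compl_section {p : Spec (CommRingCat.of k) ⟶ C} (hp : p ≫ c = 𝟙 _) :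
    ∃ D : CurveChart c, (D.U₀ : Set C) = (Set.range p)ᶜ := by
  obtain ⟨D, hD⟩ := exists_curveChart_compl c (isClosed_range_section c hp)
  refine ⟨D, hD.trans (congrArg _ (Set.ext fun z => ?_))⟩
  constructor
  · rintro rfl; exact ⟨_, rfl⟩
  · rintro ⟨y, rfl⟩
    exact congrArg p (Subsingleton.elim (α := PrimeSpectrum k) _ _)

end Fermat.Agent.Jacobian
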