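import Fermat.Agent.Jacobian.Curve.Chart
import Fermat.Agent.Jacobian.Curve.Local
import Fermat.Agent.Curve.Places
import Mathlib.AlgebraicGeometry.Morphisms.Smooth
import Mathlib.AlgebraicGeometry.Morphisms.Proper
import Mathlib.AlgebraicGeometry.ValuativeCriterion
import Mathlib.RingTheory.NoetherNormalization
import Mathlib.RingTheory.Smooth.StandardSmoothCotangent

/-!
# Closed points of a smooth proper curve are the places of its function field

`FF c` is the function field as a `k`-algebra. The local ring at a closed point is a discrete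
valuation ring, closed points correspond bijectively to places, and a function regular at all
closed points of an open is a section over it.
-/

set_option autoImplicit false

noncomputable section

universe u

open CategoryTheory AlgebraicGeometry TopologicalSpace AlgebraicCurve IsLocalRing

namespace Fermat.Agent.Jacobian

variable {k : Type u} [Field k] {C : Scheme.{u}} [IsIntegral C] (c : C ⟶ Spec (CommRingCat.of k))

/-- The function field of a curve over `k`. -/
def FF (_c : C ⟶ Spec (CommRingCat.of k)) : Type u := C.functionField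

instance : Field (FF c) := inferInstanceAs (Field C.functionField)

lemma genericPoint_mem (U : C.Opens) [h : Nonempty U] : genericPoint C ∈ U :=
  ((genericPoint_spec C).mem_open_set_iff U.isOpen).mpr (by simpa using h)

/-- Sections as rational functions. -/
def toFF (U : C.Opens) [Nonempty U] : Γ(C, U) →+* FF c := (C.germToFunctionField U).hom

instance : Algebra k (FF c) :=
  haveI : Nonempty (⊤ : C.Opens) := ⟨⟨genericPoint C, trivial⟩⟩
  ((toFF c ⊤).comp (baseHom c ⊤)).toAlgebra

lemma toFF_injective (U : C.Opens) [Nonempty U] : Function.Injective (toFF c U) :=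
  Scheme.germToFunctionField_injective C U

lemma toFF_res {U V : C.Opens} [Nonempty U] [Nonempty V] (h : V ≤ U) (a : Γ(C, U)) :
    toFF c V (res h a) = toFF c U a :=
  C.presheaf.germ_res_apply (homOfLE h) _ (genericPoint_mem V) a

lemma toFF_baseHom (U : C.Opens) [Nonempty U] (a : k) :
    toFF c U (baseHom c U a) = algebraMap k (FF c) a := by
  haveI : Nonempty (⊤ : C.Opens) := ⟨⟨genericPoint C, trivial⟩⟩
  rw [← res_baseHom c (le_top : U ≤ ⊤), toFF_res c le_top]
  rfl

/-- `Γ(C, U)` as a `k`-algebra. -/
@[reducible] def sectionAlgebra (U : C.Opens) : Algebra k Γ(C, U) := (baseHom c U).toAlgebra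

/-- The local ring at a point inside the function field. -/
def stalkToFF (x : C) : C.presheaf.stalk x →+* FF c :=
  algebraMap (C.presheaf.stalk x) C.functionField

lemma stalkToFF_injective (x : C) : Function.Injective (stalkToFF c x) :=
  IsFractionRing.injective (C.presheaf.stalk x) C.functionField

lemma stalkToFF_germ {U : C.Opens} [Nonempty U] {x : C} (hx : x ∈ U) (a : Γ(C, U)) :
    stalkToFF c x (C.presheaf.germ U x hx a) = toFF c U a :=
  Scheme.algebraMap_germ_eq_germToFunctionField C hx a

lemma stalkToFF_div_surjective (x : C) (f : FF c) :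
    ∃ a b : C.presheaf.stalk x, stalkToFF c x b ≠ 0 ∧ f = stalkToFF c x a / stalkToFF c x b := by
  obtain ⟨a, b, hb, h⟩ := IsFractionRing.div_surjective (A := C.presheaf.stalk x)
    (K := C.functionField) f
  exact ⟨a, b, fun h0 => nonZeroDivisors.ne_zero hb
    ((map_eq_zero_iff _ (stalkToFF_injective c x)).1 h0), h.symm⟩

variable [SmoothOfRelativeDimension 1 c]

/-- Every point has an affine neighbourhood with finitely generated ring of functions and
differentials free of rank one. -/
theorem exists_standard_nhd (x : C) :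
    ∃ V : C.Opens, IsAffineOpen V ∧ x ∈ V ∧
      (@Algebra.FiniteType k Γ(C, V) _ _ (sectionAlgebra c V)) ∧
      ∃ ω : @KaehlerDifferential k Γ(C, V) _ _ (sectionAlgebra c V),
        (∀ η, ∃ a : Γ(C, V), η = a • ω) ∧ ω ≠ 0 := by
  obtain ⟨U, -, V, hV, hx, e, hf⟩ :=
    SmoothOfRelativeDimension.exists_isStandardSmoothOfRelativeDimension (n := 1) (f := c) x
  obtain rfl : U = ⊤ := by
    refine top_le_iff.1 fun y _ => ?_
    have : y = c x := Subsingleton.elim (α := PrimeSpectrum k) _ _
    exact this ▸ e hx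
  refine ⟨V, hV, hx, ?_⟩
  letI : Algebra k Γ(C, V) := sectionAlgebra c V
  have hiso : RingHom.IsStandardSmoothOfRelativeDimension 1 (baseHom c V) := by
    have h := RingHom.isStandardSmoothOfRelativeDimension_respectsIso.right _
      (Scheme.ΓSpecIso (CommRingCat.of k)).symm.commRingCatIsoToRingEquiv hf
    exact h
  have hk : Algebra.IsStandardSmoothOfRelativeDimension 1 k Γ(C, V) := hiso
  have : Algebra.IsStandardSmooth k Γ(C, V) :=
    Algebra.IsStandardSmoothOfRelativeDimension.isStandardSmooth 1
  have : Nonempty V := ⟨⟨x, hx⟩⟩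
  refine ⟨inferInstance, ?_⟩
  have hrank := Algebra.IsStandardSmoothOfRelativeDimension.rank_kaehlerDifferential
    (R := k) (S := Γ(C, V)) 1
  have hfin : Module.finrank Γ(C, V) (KaehlerDifferential k Γ(C, V)) = 1 :=
    Module.finrank_eq_of_rank_eq (by exact_mod_cast hrank)
  obtain ⟨v, hv, hspan⟩ := finrank_eq_one_iff'.1 hfin
  exact ⟨v, fun η => (hspan η).imp fun a ha => ha.symm, hv⟩

variable [IsAlgClosed k]

theorem jacobsonSpace_curve [LocallyOfFiniteType c] : JacobsonSpace C :=
  LocallyOfFiniteType.jacobsonSpace c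

omit [SmoothOfRelativeDimension 1 c] [IsAlgClosed k] [IsIntegral C] in
theorem isClosed_of_isMaximal [LocallyOfFiniteType c] {V : C.Opens} (hV : IsAffineOpen V) {x : C}
    (hx : x ∈ V) (hm : (hV.primeIdealOf ⟨x, hx⟩).asIdeal.IsMaximal) : IsClosed ({x} : Set C) := by
  have : JacobsonSpace C := LocallyOfFiniteType.jacobsonSpace c
  have h1 : IsClosed ({hV.primeIdealOf ⟨x, hx⟩} : Set (PrimeSpectrum Γ(C, V))) :=
    (PrimeSpectrum.isClosed_singleton_iff_isMaximal _).2 hm
  have h2 := h1.preimage hV.isoSpec.hom.continuous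
  have hsing : hV.isoSpec.hom ⁻¹' {hV.primeIdealOf ⟨x, hx⟩} = {⟨x, hx⟩} := by
    ext y
    exact ⟨fun h => hV.isoSpec.hom.homeomorph.injective h, fun h => congrArg _ h⟩
  replace h2 : IsClosed ({⟨x, hx⟩} : Set V) := hsing ▸ h2
  refine isClosed_singleton_of_isLocallyClosed_singleton ?_
  have hr : Set.range (fun y : V => (y : C)) = (V : Set C) := Subtype.range_coe
  have him : (fun y : V => (y : C)) '' {⟨x, hx⟩} = {x} := Set.image_singleton
  rw [← him]
  exact h2.isLocallyClosed.image V.isOpen.isOpenEmbedding_subtypeVal.isInducing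
    (hr.symm ▸ V.isOpen.isLocallyClosed)

omit [SmoothOfRelativeDimension 1 c] [IsAlgClosed k] [IsIntegral C] in
theorem isMaximal_of_isClosed {V : C.Opens} (hV : IsAffineOpen V) {x : C}
    (hx : x ∈ V) (hc : IsClosed ({x} : Set C)) :
    (hV.primeIdealOf ⟨x, hx⟩).asIdeal.IsMaximal := by
  rw [← PrimeSpectrum.isClosed_singleton_iff_isMaximal]
  have h1 : IsClosed ({⟨x, hx⟩} : Set V) := by
    have hpre : ({⟨x, hx⟩} : Set V) = (fun y : V => (y : C)) ⁻¹' {x} :=
      Set.ext fun y => ⟨fun h => congrArg Subtype.val h, fun h => Subtype.ext h⟩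
    rw [hpre]
    exact hc.preimage continuous_subtype_val
  have h2 := hV.isoSpec.hom.homeomorph.isClosedMap _ h1
  have hw : ({hV.primeIdealOf ⟨x, hx⟩} : Set (PrimeSpectrum Γ(C, V))) =
      hV.isoSpec.hom.homeomorph '' {⟨x, hx⟩} :=
    (Set.image_singleton (f := hV.isoSpec.hom.homeomorph)).symm
  rw [hw]
  exact h2

/-- In a standard neighbourhood the local ring at a maximal ideal is a principal ideal ring
which is not a field. -/
theorem isPrincipalIdealRing_stalk [LocallyOfFiniteType c] {x : C}
    (hc : IsClosed ({x} : Set C)) :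
    IsPrincipalIdealRing (C.presheaf.stalk x) ∧ ¬ IsField (C.presheaf.stalk x) := by
  obtain ⟨V, hV, hx, hft, ω, hω, hω0⟩ := exists_standard_nhd c x
  letI : Algebra k Γ(C, V) := sectionAlgebra c V
  have hm := isMaximal_of_isClosed hV hx hc
  set m := (hV.primeIdealOf ⟨x, hx⟩).asIdeal
  letI : Algebra Γ(C, V) (C.presheaf.stalk x) := TopCat.Presheaf.algebra_section_stalk C.presheaf ⟨x, hx⟩
  have hloc : IsLocalization.AtPrime (C.presheaf.stalk x) m := hV.isLocalization_stalk ⟨x, hx⟩
  have hΩ : OmegaLocallyCyclic k Γ(C, V) := fun p hp =>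
    ⟨1, fun h => hp.ne_top ((Ideal.eq_top_iff_one p).2 h), ω, fun η => (hω η).imp fun a ha => by
      rw [one_smul, ha]⟩
  have hLP := idealsLocallyPrincipal_of_isAlgClosed k hΩ
  have : Nonempty V := ⟨⟨x, hx⟩⟩
  constructor
  · refine ⟨fun J => ?_⟩
    obtain ⟨s, hs, f, hf, hdvd⟩ :=
      hLP (J.comap (algebraMap Γ(C, V) (C.presheaf.stalk x))) m inferInstance
    refine ⟨⟨algebraMap Γ(C, V) (C.presheaf.stalk x) f, le_antisymm (fun z hz => ?_) ?_⟩⟩
    · obtain ⟨⟨a, t⟩, hat⟩ := IsLocalization.surj m.primeCompl z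
      obtain ⟨b, hb⟩ := hdvd a (Ideal.mem_comap.2 (by rw [← hat]; exact Ideal.mul_mem_right _ _ hz))
      have hu : IsUnit (algebraMap Γ(C, V) (C.presheaf.stalk x) (s * t)) :=
        IsLocalization.map_units _ (⟨s * t, mul_mem (s := m.primeCompl) hs t.2⟩ : m.primeCompl)
      refine (Ideal.unit_mul_mem_iff_mem _ hu).1 (Submodule.mem_span_singleton.2
        ⟨algebraMap Γ(C, V) (C.presheaf.stalk x) b, ?_⟩)
      rw [smul_eq_mul, mul_comm, ← map_mul, ← hb, map_mul, ← hat, map_mul]
      ring
    · rw [Submodule.span_le, Set.singleton_subset_iff]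
      exact hf
  · intro hfield
    have hmax : IsLocalRing.maximalIdeal (C.presheaf.stalk x) = ⊥ :=
      (IsLocalRing.isField_iff_maximalIdeal_eq).1 hfield
    have hm0 : m = ⊥ := by
      rw [← IsLocalization.AtPrime.under_maximalIdeal (C.presheaf.stalk x) m, hmax]
      exact Ideal.comap_bot_of_injective _ (germ_injective_of_isIntegral C x hx)
    have hbij : Function.Surjective (algebraMap k Γ(C, V)) := by
      intro a
      obtain ⟨ρ, hρ⟩ := exists_residueHom k m
      refine ⟨ρ a, ?_⟩
      have := hρ a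
      rw [hm0, Ideal.mem_bot, sub_eq_zero] at this
      exact this.symm
    have : Subsingleton (KaehlerDifferential k Γ(C, V)) :=
      KaehlerDifferential.subsingleton_of_surjective k Γ(C, V) hbij
    exact hω0 (Subsingleton.elim _ _)

theorem isDiscreteValuationRing_stalk [LocallyOfFiniteType c] {x : C}
    (hc : IsClosed ({x} : Set C)) : IsDiscreteValuationRing (C.presheaf.stalk x) := by
  obtain ⟨h1, h2⟩ := isPrincipalIdealRing_stalk c hc
  exact ⟨fun h => h2 (IsLocalRing.isField_iff_maximalIdeal_eq.2 h)⟩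

/-- A nonzero prime of a standard neighbourhood is maximal. -/
theorem isMaximal_of_ne_bot [LocallyOfFiniteType c] {V : C.Opens} (hV : IsAffineOpen V)
    (p : Ideal Γ(C, V)) [hp : p.IsPrime] (hp0 : p ≠ ⊥) : p.IsMaximal := by
  obtain ⟨m, hm, hpm⟩ := Ideal.exists_le_maximal p hp.ne_top
  suffices p = m from this ▸ hm
  let y : PrimeSpectrum Γ(C, V) := ⟨m, hm.isPrime⟩
  have hyV : hV.fromSpec y ∈ V := by
    rw [← SetLike.mem_coe, ← hV.range_fromSpec]; exact Set.mem_range_self _
  have hprime : hV.primeIdealOf ⟨hV.fromSpec y, hyV⟩ = y :=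
    hV.fromSpec.isOpenEmbedding.injective (hV.fromSpec_primeIdealOf _)
  set x := hV.fromSpec y
  have hc : IsClosed ({x} : Set C) := isClosed_of_isMaximal c hV hyV (by rw [hprime]; exact hm)
  letI : Algebra Γ(C, V) (C.presheaf.stalk x) :=
    TopCat.Presheaf.algebra_section_stalk C.presheaf ⟨x, hyV⟩
  have hloc : IsLocalization.AtPrime (C.presheaf.stalk x) m := by
    have := hV.isLocalization_stalk ⟨x, hyV⟩
    rwa [hprime] at this
  have := isDiscreteValuationRing_stalk c hc
  have hdisj : Disjoint (m.primeCompl : Set Γ(C, V)) p :=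
    Set.disjoint_left.2 fun a ha hap => ha (hpm hap)
  have hpL : (p.map (algebraMap Γ(C, V) (C.presheaf.stalk x))).IsPrime :=
    IsLocalization.isPrime_of_isPrime_disjoint m.primeCompl _ p hp hdisj
  have hcomap := IsLocalization.under_map_of_isPrime_disjoint m.primeCompl
    (C.presheaf.stalk x) hp hdisj
  have hne : p.map (algebraMap Γ(C, V) (C.presheaf.stalk x)) ≠ ⊥ := fun h => hp0 (by
    rw [← hcomap, h]
    exact Ideal.comap_bot_of_injective _ (germ_injective_of_isIntegral C x hyV))
  have heq := IsLocalRing.eq_maximalIdeal (hpL.isMaximal hne)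
  rw [← hcomap, heq]
  exact IsLocalization.AtPrime.under_maximalIdeal (C.presheaf.stalk x) m

/-- A point other than the generic one is closed. -/
theorem isClosed_of_ne_genericPoint [LocallyOfFiniteType c] {x : C} (hx : x ≠ genericPoint C) :
    IsClosed ({x} : Set C) := by
  obtain ⟨_, ⟨V, hV, rfl⟩, hxV, -⟩ :=
    C.isBasis_affineOpens.exists_subset_of_mem_open (Set.mem_univ x) isOpen_univ
  refine isClosed_of_isMaximal c hV hxV (isMaximal_of_ne_bot c hV _ fun h => hx ?_)
  have : Nonempty V := ⟨⟨x, hxV⟩⟩
  have heq : hV.primeIdealOf ⟨x, hxV⟩ = hV.primeIdealOf ⟨genericPoint C, genericPoint_mem V⟩ := by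
    rw [hV.primeIdealOf_genericPoint, genericPoint_eq_bot_of_affine]
    exact PrimeSpectrum.ext h
  have h2 := congrArg hV.fromSpec heq
  rwa [hV.fromSpec_primeIdealOf, hV.fromSpec_primeIdealOf] at h2

theorem not_isClosed_genericPoint [LocallyOfFiniteType c] :
    ¬ IsClosed ({genericPoint C} : Set C) := fun h =>
  (isPrincipalIdealRing_stalk c h).2 (Field.toIsField C.functionField)

/-- The function field has transcendence degree one. -/
theorem isFunctionField1_ff [LocallyOfFiniteType c] :
    Fermat.Agent.Curve.IsFunctionField1 k (FF c) := by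
  obtain ⟨V, hV, hxV, hft, ω, hω, hω0⟩ := exists_standard_nhd c (genericPoint C)
  haveI : Nonempty V := ⟨⟨_, hxV⟩⟩
  letI : Algebra k Γ(C, V) := sectionAlgebra c V
  obtain ⟨d, g, hinj, hint⟩ := exists_integral_inj_algHom_of_fg k Γ(C, V)
  letI : Algebra (MvPolynomial (Fin d) k) Γ(C, V) := g.toRingHom.toAlgebra
  have : Algebra.IsIntegral (MvPolynomial (Fin d) k) Γ(C, V) := ⟨hint⟩
  have hbotmax : ¬ (⊥ : Ideal Γ(C, V)).IsMaximal := by
    intro h
    refine not_isClosed_genericPoint c (isClosed_of_isMaximal c hV hxV ?_)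
    rw [hV.primeIdealOf_genericPoint, genericPoint_eq_bot_of_affine]
    exact h
  have hd : d = 1 := by
    rcases Nat.lt_trichotomy d 1 with h | h | h
    · exfalso
      obtain rfl : d = 0 := by omega
      refine hbotmax (Ideal.isMaximal_of_isIntegral_of_isMaximal_comap
        (R := MvPolynomial (Fin 0) k) _ ?_)
      rw [show Ideal.comap (algebraMap (MvPolynomial (Fin 0) k) Γ(C, V)) ⊥ = ⊥ from
        Ideal.comap_bot_of_injective _ hinj]
      letI : Field (MvPolynomial (Fin 0) k) :=
        ((MvPolynomial.isEmptyAlgEquiv k (Fin 0)).toRingEquiv.toMulEquiv.isField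
          (Field.toIsField k)).toField
      exact Ideal.bot_isMaximal
    · exact h
    · exfalso
      obtain ⟨e, rfl⟩ : ∃ e, d = e + 2 := ⟨d - 2, by omega⟩
      let φ : MvPolynomial (Fin (e + 2)) k →ₐ[k] MvPolynomial (Fin (e + 2)) k :=
        MvPolynomial.aeval fun i => if i = 0 then 0 else MvPolynomial.X i
      let p : Ideal (MvPolynomial (Fin (e + 2)) k) := RingHom.ker φ
      have hp : p.IsPrime := RingHom.ker_isPrime φ
      obtain ⟨Q, -, hQ, hQp⟩ := Ideal.exists_ideal_over_prime_of_isIntegral p (⊥ : Ideal Γ(C, V))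
        (le_trans (le_of_eq (Ideal.comap_bot_of_injective _
          (hinj : Function.Injective (algebraMap (MvPolynomial (Fin (e + 2)) k) Γ(C, V))))) bot_le)
      have hX0 : (MvPolynomial.X 0 : MvPolynomial (Fin (e + 2)) k) ∈ p := by
        simp [p, φ, RingHom.mem_ker]
      have hQ0 : Q ≠ ⊥ := by
        rintro rfl
        have hb : Ideal.comap (algebraMap (MvPolynomial (Fin (e + 2)) k) Γ(C, V)) ⊥ = ⊥ :=
          Ideal.comap_bot_of_injective _ hinj
        rw [hb] at hQp
        rw [← hQp] at hX0
        exact MvPolynomial.X_ne_zero 0 (Ideal.mem_bot.1 hX0)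
      have := isMaximal_of_ne_bot c hV Q hQ0
      have hpmax : p.IsMaximal := hQp ▸ Ideal.isMaximal_comap_of_isIntegral_of_isMaximal Q
      have h1 : (MvPolynomial.X 1 : MvPolynomial (Fin (e + 2)) k) ∉ p := by
        simp [p, φ, RingHom.mem_ker, MvPolynomial.X_ne_zero]
      obtain ⟨y, z, hz, hyz⟩ := hpmax.exists_inv h1
      have h2 := congrArg φ hyz
      rw [map_add, map_mul, map_one, (RingHom.mem_ker).1 hz, add_zero] at h2
      have hu : IsUnit (MvPolynomial.X 1 : MvPolynomial (Fin (e + 2)) k) :=
        IsUnit.of_mul_eq_one (φ y) (by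
          rw [show φ (MvPolynomial.X 1) = MvPolynomial.X 1 by simp [φ], mul_comm] at h2
          exact h2)
      have h3 := hu.map (MvPolynomial.eval (0 : Fin (e + 2) → k))
      simp at h3
  subst hd
  let x : FF c := toFF c V (g (MvPolynomial.X 0))
  let τ : Γ(C, V) →ₐ[k] FF c := { toFF c V with commutes' := toFF_baseHom c V }
  have hτ : Function.Injective τ := toFF_injective c V
  have hcomp : ∀ q : MvPolynomial (Fin 1) k, τ (g q) ∈ IntermediateField.adjoin k {x} := by
    intro q
    induction q using MvPolynomial.induction_on with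
    | C a =>
      rw [← MvPolynomial.algebraMap_eq, AlgHom.commutes, AlgHom.commutes]
      exact IntermediateField.algebraMap_mem _ a
    | add p q hp hq => rw [map_add, map_add]; exact add_mem hp hq
    | mul_X p i hp =>
      rw [map_mul, map_mul, Fin.eq_zero i]
      exact mul_mem hp (IntermediateField.mem_adjoin_simple_self k x)
  have hx : Transcendental k x := by
    rintro ⟨q, hq0, hq⟩
    apply hq0
    apply (MvPolynomial.uniqueAlgEquiv k (Fin 1)).symm.injective
    rw [map_zero]
    apply hτ.comp hinj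
    simp only [Function.comp, map_zero]
    rw [← hq]
    have : ((τ.comp g).comp (MvPolynomial.uniqueAlgEquiv k (Fin 1)).symm.toAlgHom) = Polynomial.aeval x := by
      apply Polynomial.algHom_ext
      simp [x, τ]
    exact DFunLike.congr_fun this q
  refine Fermat.Agent.Curve.IsFunctionField1.of_finite_adjoin hx ?_
  set K' := IntermediateField.adjoin k {x}
  have hintA : ∀ a : Γ(C, V), IsIntegral K' (τ a) := by
    intro a
    obtain ⟨q, hqm, hq⟩ := Algebra.IsIntegral.isIntegral (R := MvPolynomial (Fin 1) k) a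
    let θ : MvPolynomial (Fin 1) k →+* K' :=
      (τ.comp g).toRingHom.codRestrict K' hcomp
    refine ⟨q.map θ, hqm.map θ, ?_⟩
    rw [Polynomial.eval₂_map]
    have := congrArg τ.toRingHom hq
    rw [Polynomial.hom_eval₂, map_zero] at this
    exact this
  obtain ⟨T, hT⟩ := hft.out
  classical
  have hfd : FiniteDimensional K' (IntermediateField.adjoin K' ((T.image τ : Finset (FF c)) : Set (FF c))) :=
    IntermediateField.finiteDimensional_adjoin fun z hz => by
      obtain ⟨a, -, rfl⟩ := Finset.mem_image.1 hz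
      exact hintA a
  have htop : IntermediateField.adjoin K' ((T.image τ : Finset (FF c)) : Set (FF c)) = ⊤ := by
    refine top_le_iff.1 fun f _ => ?_
    have hA : ∀ a : Γ(C, V), τ a ∈
        IntermediateField.adjoin K' ((T.image τ : Finset (FF c)) : Set (FF c)) := by
      intro a
      have ha : a ∈ Algebra.adjoin k (T : Set Γ(C, V)) := hT ▸ trivial
      induction ha using Algebra.adjoin_induction with
      | mem b hb => exact IntermediateField.subset_adjoin _ _ (by simpa using ⟨b, hb, rfl⟩)
      | algebraMap r =>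
        rw [AlgHom.commutes, IsScalarTower.algebraMap_apply k K' (FF c)]
        exact IntermediateField.algebraMap_mem _ _
      | add p q _ _ hp hq => rw [map_add]; exact add_mem hp hq
      | mul p q _ _ hp hq => rw [map_mul]; exact mul_mem hp hq
    have : IsFractionRing Γ(C, V) C.functionField := functionField_isFractionRing_of_isAffineOpen C V hV
    obtain ⟨a, b, -, h⟩ := IsFractionRing.div_surjective (A := Γ(C, V)) (K := C.functionField) f
    rw [← h]
    exact div_mem (hA a) (hA b)
  rw [htop] at hfd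
  exact IntermediateField.topEquiv.toLinearEquiv.finiteDimensional

/-- The place of a closed point. -/
def placeOf [LocallyOfFiniteType c] (x : C) (hc : IsClosed ({x} : Set C)) : Place k (FF c) where
  toValuationSubring :=
    { (stalkToFF c x).range with
      mem_or_inv_mem' := fun f => by
        have := isDiscreteValuationRing_stalk c hc
        obtain ⟨a, b, hb, rfl⟩ := stalkToFF_div_surjective c x f
        rcases ValuationRing.cond a b with ⟨d, h | h⟩
        · right
          refine ⟨d, ?_⟩
          rw [← h, map_mul]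
          by_cases ha : stalkToFF c x a = 0
          · simp [← h, map_mul, ha] at hb
          · field_simp
        · left
          refine ⟨d, ?_⟩
          rw [← h, map_mul]
          field_simp }
  algebraMap_mem' := fun a => by
    haveI : Nonempty (⊤ : C.Opens) := ⟨⟨genericPoint C, trivial⟩⟩
    exact ⟨C.presheaf.germ ⊤ x trivial (baseHom c ⊤ a), stalkToFF_germ c (U := ⊤) trivial _⟩
  ne_top' := fun h => by
    refine (isPrincipalIdealRing_stalk c hc).2
      (MulEquiv.isField (Field.toIsField (FF c)) (RingEquiv.ofBijective (stalkToFF c x)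
        ⟨stalkToFF_injective c x, fun f => ?_⟩).toMulEquiv)
    have : f ∈ (⊤ : ValuationSubring (FF c)) := ValuationSubring.mem_top f
    rw [← h] at this
    exact this
  isPrincipalIdealRing' := by
    have := (isPrincipalIdealRing_stalk c hc).1
    exact IsPrincipalIdealRing.of_surjective ((stalkToFF c x).rangeRestrict)
      (RingHom.rangeRestrict_surjective _)

theorem mem_placeOf [LocallyOfFiniteType c] {x : C} {hc : IsClosed ({x} : Set C)} {f : FF c} :
    f ∈ (placeOf c x hc).toValuationSubring ↔ ∃ a, stalkToFF c x a = f := Iff.rfl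

theorem toFF_mem_placeOf [LocallyOfFiniteType c] {U : C.Opens} [Nonempty U] {x : C}
    (hc : IsClosed ({x} : Set C)) (hx : x ∈ U) (a : Γ(C, U)) :
    toFF c U a ∈ (placeOf c x hc).toValuationSubring :=
  ⟨C.presheaf.germ U x hx a, stalkToFF_germ c hx a⟩

/-- The generic point as a point with values in the function field. -/
def genHom : Spec (CommRingCat.of (FF c)) ⟶ C := C.fromSpecStalk (genericPoint C)

omit [SmoothOfRelativeDimension 1 c] [IsAlgClosed k] in
/-- The generic point seen through the local ring at `x`. -/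
theorem specMap_stalkToFF (x : C) :
    Spec.map (CommRingCat.ofHom (stalkToFF c x)) ≫ C.fromSpecStalk x = genHom c :=
  Scheme.SpecMap_stalkSpecializes_fromSpecStalk
    (h := (genericPoint_spec C).specializes trivial)

omit [SmoothOfRelativeDimension 1 c] [IsAlgClosed k] [IsIntegral C] in
/-- The structure map on a local ring. -/
theorem fromSpecStalk_comp_base (x : C) :
    C.fromSpecStalk x ≫ c =
      Spec.map (CommRingCat.ofHom ((C.presheaf.germ ⊤ x trivial).hom.comp (baseHom c ⊤))) := by
  rw [← Scheme.SpecMap_stalkMap_fromSpecStalk, Spec.fromSpecStalk_eq, ← Spec.map_comp]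
  congr 1
  ext a
  simp only [CommRingCat.hom_comp, CommRingCat.hom_ofHom, RingHom.comp_apply]
  erw [Scheme.Hom.germ_stalkMap_apply]
  simp [baseHom, pb, Scheme.Hom.appLE]
  rfl

omit [SmoothOfRelativeDimension 1 c] [IsAlgClosed k] in
theorem genHom_comp : genHom c ≫ c = Spec.map (CommRingCat.ofHom (algebraMap k (FF c))) :=
  fromSpecStalk_comp_base c (genericPoint C)

/-- Every place is the place of a closed point. -/
theorem exists_placeOf_eq [IsProper c] (v : Place k (FF c)) :
    ∃ (x : C) (hc : IsClosed ({x} : Set C)), placeOf c x hc = v := by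
  haveI : Nonempty (⊤ : C.Opens) := ⟨⟨genericPoint C, trivial⟩⟩
  let R := v.toValuationSubring
  let β : k →+* R := (algebraMap k (FF c)).codRestrict R v.algebraMap_mem'
  have hsq : CommSq (genHom c)
      (Spec.map (CommRingCat.ofHom (algebraMap R (FF c)))) c
      (Spec.map (CommRingCat.ofHom β)) := by
    refine ⟨?_⟩
    rw [genHom_comp, ← Spec.map_comp]
    congr 1
  obtain ⟨⟨l⟩⟩ := (IsProper.eq_valuativeCriterion ▸ ‹IsProper c› :
    (ValuativeCriterion ⊓ @QuasiCompact ⊓ @QuasiSeparated ⊓ @LocallyOfFiniteType) c).1.1.1.existence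
      { R := R, K := FF c, i₁ := genHom c,
        i₂ := Spec.map (CommRingCat.ofHom β), commSq := hsq }
  let l' : Spec (CommRingCat.of R) ⟶ C := l.l
  have hl' : Spec.map (CommRingCat.ofHom (algebraMap R (FF c))) ≫ l' = genHom c := l.fac_left
  let x := l' (IsLocalRing.closedPoint R)
  let φ := Scheme.stalkClosedPointTo l'
  have hl : Spec.map φ ≫ C.fromSpecStalk x = l' := Scheme.Spec_stalkClosedPointTo_fromSpecStalk l'
  have h1 : Spec.map (φ ≫ CommRingCat.ofHom (algebraMap R (FF c))) ≫ C.fromSpecStalk x =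
      Spec.map (CommRingCat.ofHom (stalkToFF c x)) ≫ C.fromSpecStalk x := by
    rw [Spec.map_comp, Category.assoc, hl, hl', specMap_stalkToFF]
  have hφ := Spec.map_injective ((cancel_mono _).1 h1)
  have hmem : ∀ a, stalkToFF c x a ∈ R := fun a => by
    have h2 : algebraMap R (FF c) (φ a) = stalkToFF c x a := congrArg (fun m => m a) hφ
    rw [← h2]
    exact (φ a).2
  have hc : IsClosed ({x} : Set C) := by
    refine isClosed_of_ne_genericPoint c fun hx => v.ne_top' ?_
    refine top_le_iff.1 fun f _ => ?_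
    obtain ⟨a, b, hb, rfl⟩ := stalkToFF_div_surjective c x f
    have hf : IsField (C.presheaf.stalk x) := hx ▸ Field.toIsField C.functionField
    obtain ⟨b', hb'⟩ := hf.mul_inv_cancel (fun h : b = 0 => hb (by rw [h, map_zero]))
    convert hmem (a * b') using 1
    have := congrArg (stalkToFF c x) hb'
    rw [map_mul, map_one] at this
    rw [map_mul]
    field_simp
    linear_combination (-(stalkToFF c x a)) * this
  refine ⟨x, hc, Fermat.Agent.Curve.eq_of_toValuationSubring_le ?_⟩
  rintro _ ⟨a, rfl⟩
  exact hmem a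

/-- Distinct closed points give distinct places. -/
theorem placeOf_injective [IsProper c] {x y : C} {hx : IsClosed ({x} : Set C)}
    {hy : IsClosed ({y} : Set C)} (h : placeOf c x hx = placeOf c y hy) : x = y := by
  have := isDiscreteValuationRing_stalk c hy
  letI : Algebra (C.presheaf.stalk y) (FF c) :=
    inferInstanceAs (Algebra (C.presheaf.stalk y) C.functionField)
  have : IsFractionRing (C.presheaf.stalk y) (FF c) :=
    (inferInstance : IsFractionRing (C.presheaf.stalk y) C.functionField)
  have hxy : ∀ a, ∃ b, stalkToFF c y b = stalkToFF c x a := fun a => by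
    have : stalkToFF c x a ∈ (placeOf c x hx).toValuationSubring := ⟨a, rfl⟩
    rw [h] at this
    exact this
  choose ψ hψ using hxy
  let ψ' : C.presheaf.stalk x →+* C.presheaf.stalk y :=
    { toFun := ψ
      map_one' := stalkToFF_injective c y (by rw [hψ, map_one, map_one])
      map_mul' := fun a b => stalkToFF_injective c y (by rw [hψ, map_mul, map_mul, hψ, hψ])
      map_zero' := stalkToFF_injective c y (by rw [hψ, map_zero, map_zero])
      map_add' := fun a b => stalkToFF_injective c y (by rw [hψ, map_add, map_add, hψ, hψ]) }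
  have hψ' : CommRingCat.ofHom ψ' ≫ CommRingCat.ofHom (stalkToFF c y) =
      CommRingCat.ofHom (stalkToFF c x) := by
    ext a; exact hψ a
  have hloc : IsLocalHom ψ' := ⟨fun a ha => by
    obtain ⟨b, hb⟩ := ha.exists_right_inv
    have hb' : stalkToFF c y b ∈ (placeOf c y hy).toValuationSubring := ⟨b, rfl⟩
    rw [← h] at hb'
    obtain ⟨b₀, hb₀⟩ := hb'
    refine IsUnit.of_mul_eq_one b₀ (stalkToFF_injective c x ?_)
    rw [map_mul, hb₀, ← hψ a, map_one, ← map_mul]
    exact (congrArg _ hb).trans (map_one _)⟩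
  have hlx : Spec.map (CommRingCat.ofHom (stalkToFF c y)) ≫
      (Spec.map (CommRingCat.ofHom ψ') ≫ C.fromSpecStalk x) = genHom c := by
    rw [← Category.assoc, ← Spec.map_comp, hψ', specMap_stalkToFF]
  have hc2 : (Spec.map (CommRingCat.ofHom ψ') ≫ C.fromSpecStalk x) ≫ c =
      C.fromSpecStalk y ≫ c := by
    rw [Category.assoc, fromSpecStalk_comp_base, fromSpecStalk_comp_base]
    erw [← Spec.map_comp]
    congr 1
    ext a
    haveI : Nonempty (⊤ : C.Opens) := ⟨⟨genericPoint C, trivial⟩⟩
    apply stalkToFF_injective c y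
    change stalkToFF c y (ψ _) = stalkToFF c y _
    rw [hψ]
    exact (stalkToFF_germ c (U := ⊤) trivial _).trans
      (stalkToFF_germ c (U := ⊤) trivial (baseHom c ⊤ a)).symm
  have hdom : IsDomain (C.presheaf.stalk y) := inferInstance
  have hval : ValuationRing (C.presheaf.stalk y) := inferInstance
  have hsq : CommSq (genHom c)
      (Spec.map (CommRingCat.ofHom (algebraMap (C.presheaf.stalk y) (FF c)))) c
      (C.fromSpecStalk y ≫ c) := ⟨by
    rw [← specMap_stalkToFF c y, Category.assoc]; rfl⟩
  have huniq := IsSeparated.valuativeCriterion c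
    { R := C.presheaf.stalk y, domain := hdom, valuationRing := hval, K := FF c, i₁ := genHom c,
      i₂ := C.fromSpecStalk y ≫ c, commSq := hsq }
  have heq : Spec.map (CommRingCat.ofHom ψ') ≫ C.fromSpecStalk x = C.fromSpecStalk y :=
    congrArg CommSq.LiftStruct.l
      (@Subsingleton.elim _ huniq ⟨Spec.map (CommRingCat.ofHom ψ') ≫ C.fromSpecStalk x, hlx, hc2⟩
        ⟨C.fromSpecStalk y, specMap_stalkToFF c y, rfl⟩)
  have h2 := congrArg (fun m : Spec (C.presheaf.stalk y) ⟶ C => m (closedPoint _)) heq
  have h3 : (Spec.map (CommRingCat.ofHom ψ')) (closedPoint (C.presheaf.stalk y)) =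
      closedPoint (C.presheaf.stalk x) := IsLocalRing.comap_closedPoint ψ'
  change (C.fromSpecStalk x) ((Spec.map (CommRingCat.ofHom ψ')) (closedPoint (C.presheaf.stalk y)))
    = (C.fromSpecStalk y) (closedPoint (C.presheaf.stalk y)) at h2
  erw [h3, Scheme.fromSpecStalk_closedPoint, Scheme.fromSpecStalk_closedPoint] at h2
  exact h2

/-- Closed points are the places of the function field. -/
def pointPlaceEquiv [IsProper c] :
    {x : C // IsClosed ({x} : Set C)} ≃ Place k (FF c) :=
  Equiv.ofBijective (fun x => placeOf c x.1 x.2)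
    ⟨fun _ _ h => Subtype.ext (placeOf_injective c h), fun v => by
      obtain ⟨x, hc, h⟩ := exists_placeOf_eq c v
      exact ⟨⟨x, hc⟩, h⟩⟩

/-- A function regular at every closed point of an affine open is a section. -/
theorem exists_toFF_eq_of_isAffineOpen [LocallyOfFiniteType c] {U : C.Opens}
    (hU : IsAffineOpen U) [Nonempty U] (f : FF c)
    (hf : ∀ (x : C) (hc : IsClosed ({x} : Set C)), x ∈ U → f ∈ (placeOf c x hc).toValuationSubring) :
    ∃ a, toFF c U a = f := by
  have hfrac : IsFractionRing Γ(C, U) C.functionField := functionField_isFractionRing_of_isAffineOpen C U hU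
  let f' : C.functionField := f
  have hmem : f' ∈ (⨅ v : MaximalSpectrum Γ(C, U), Localization.subalgebra.ofField C.functionField _
      v.asIdeal.primeCompl_le_nonZeroDivisors : Subalgebra Γ(C, U) C.functionField) := by
    rw [Algebra.mem_iInf]
    intro v
    let y : PrimeSpectrum Γ(C, U) := ⟨v.asIdeal, v.isMaximal.isPrime⟩
    have hyU : hU.fromSpec y ∈ U := by
      rw [← SetLike.mem_coe, ← hU.range_fromSpec]; exact Set.mem_range_self _
    have hprime : hU.primeIdealOf ⟨hU.fromSpec y, hyU⟩ = y :=
      hU.fromSpec.isOpenEmbedding.injective (hU.fromSpec_primeIdealOf _)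
    set x := hU.fromSpec y
    have hc : IsClosed ({x} : Set C) :=
      isClosed_of_isMaximal c hU hyU (by rw [hprime]; exact v.isMaximal)
    obtain ⟨s, hs⟩ := hf x hc hyU
    letI : Algebra Γ(C, U) (C.presheaf.stalk x) :=
      TopCat.Presheaf.algebra_section_stalk C.presheaf ⟨x, hyU⟩
    have hloc : IsLocalization.AtPrime (C.presheaf.stalk x) v.asIdeal := by
      have := hU.isLocalization_stalk ⟨x, hyU⟩
      rwa [hprime] at this
    obtain ⟨⟨a, t⟩, hat⟩ := IsLocalization.surj v.asIdeal.primeCompl s
    have ht : toFF c U (t : Γ(C, U)) ≠ 0 := fun h => t.2 (by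
      rw [(map_eq_zero_iff _ (toFF_injective c U)).1 h]; exact zero_mem _)
    refine ⟨a, t, t.2, ?_⟩
    have h := congrArg (stalkToFF c x) hat
    erw [map_mul, hs, stalkToFF_germ, stalkToFF_germ] at h
    change f = toFF c U a * (toFF c U (t : Γ(C, U)))⁻¹
    rw [← h, mul_assoc, mul_inv_cancel₀ ht, mul_one]
  rw [MaximalSpectrum.iInf_localization_eq_bot, Algebra.mem_bot] at hmem
  obtain ⟨a, ha⟩ := hmem
  exact ⟨a, ha⟩

/-- A function regular at every closed point of an open is a section. -/
theorem exists_toFF_eq [LocallyOfFiniteType c] (U : C.Opens) [Nonempty U] (f : FF c)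
    (hf : ∀ (x : C) (hc : IsClosed ({x} : Set C)), x ∈ U → f ∈ (placeOf c x hc).toValuationSubring) :
    ∃ a, toFF c U a = f := by
  let ι := {W : C.Opens // IsAffineOpen W ∧ W ≤ U ∧ genericPoint C ∈ W}
  haveI : ∀ W : ι, Nonempty (W.1 : C.Opens) := fun W => ⟨⟨_, W.2.2.2⟩⟩
  have hsec : ∀ W : ι, ∃ a : Γ(C, W.1), toFF c W.1 a = f := fun W =>
    exists_toFF_eq_of_isAffineOpen c W.2.1 f fun x hc hx => hf x hc (W.2.2.1 hx)
  choose s hs using hsec
  have hcover : U ≤ iSup fun W : ι => W.1 := by
    intro x hx
    obtain ⟨_, ⟨W, hW, rfl⟩, hxW, hWU⟩ :=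
      C.isBasis_affineOpens.exists_subset_of_mem_open hx U.isOpen
    haveI : Nonempty W := ⟨⟨x, hxW⟩⟩
    exact Opens.mem_iSup.2 ⟨⟨W, hW, hWU, genericPoint_mem W⟩, hxW⟩
  have hcompat : TopCat.Presheaf.IsCompatible C.sheaf.1 (fun W : ι => W.1) s := by
    intro W W'
    haveI : Nonempty (W.1 ⊓ W'.1 : C.Opens) := ⟨⟨_, W.2.2.2, W'.2.2.2⟩⟩
    apply toFF_injective c (W.1 ⊓ W'.1)
    exact ((toFF_res c inf_le_left (s W)).trans (hs W)).trans
      ((toFF_res c inf_le_right (s W')).trans (hs W')).symm
  obtain ⟨a, ha, -⟩ := C.sheaf.existsUnique_gluing' (fun W : ι => W.1) U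
    (fun W => homOfLE W.2.2.1) hcover s hcompat
  obtain ⟨W₀, hW₀⟩ := Opens.mem_iSup.1 (hcover (genericPoint_mem U))
  refine ⟨a, ?_⟩
  rw [← hs W₀, ← ha W₀]
  exact (toFF_res c W₀.2.2.1 a).symm

end Fermat.Agent.Jacobian
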